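import Mathlib

/-!
# LT/F: sums over the tree for the spherical functions with Satake transform `z^m + z^{-m}`

`q = s^2`.  `sph s m n` is the value at distance `n` of the spherical function `f^(m)`;
`layer q d` is the number of vertices at distance `d` from a line (per vertex of the line).
-/

open Finset

namespace Fermat.Agent.LT.F

/-- the spherical function `f^(m)` with Satake transform `z^m + z^{-m}` on the `(s^2+1)`-regular
tree, as a function of the distance `n`. -/
noncomputable def sph (s : ℝ) (m n : ℕ) : ℝ :=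
  if n = m then (s⁻¹) ^ m
  else if n < m ∧ Even (m - n) then - (s ^ 2 - 1) * (s⁻¹) ^ m else 0

/-- number of vertices at distance `d` from a line in the `(q+1)`-regular tree, per vertex of
the line. -/
def layer (q : ℝ) (d : ℕ) : ℝ := if d = 0 then 1 else (q - 1) * q ^ (d - 1)

/-- number of vertices at distance `n` from a point. -/
def sphere (q : ℝ) (n : ℕ) : ℝ := if n = 0 then 1 else (q + 1) * q ^ (n - 1)

lemma sph_self (s : ℝ) (m : ℕ) : sph s m m = (s⁻¹) ^ m := by simp [sph]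

lemma sph_of_lt {s : ℝ} {m n : ℕ} (h : m < n) : sph s m n = 0 := by
  unfold sph
  rw [if_neg (by omega), if_neg (by omega)]

lemma sph_of_even {s : ℝ} {m n : ℕ} (h : n < m) (he : Even (m - n)) :
    sph s m n = - (s ^ 2 - 1) * (s⁻¹) ^ m := by
  unfold sph
  rw [if_neg (by omega), if_pos ⟨h, he⟩]

lemma sph_of_odd {s : ℝ} {m n : ℕ} (h : n < m) (he : ¬ Even (m - n)) :
    sph s m n = 0 := by
  unfold sph
  rw [if_neg (by omega), if_neg (by tauto)]

lemma layer_zero (q : ℝ) : layer q 0 = 1 := by simp [layer]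

lemma layer_succ (q : ℝ) (d : ℕ) : layer q (d + 1) = (q - 1) * q ^ d := by simp [layer]

/-- `∑_{d<e+1} layer d = q^e`. -/
lemma sum_layer (q : ℝ) (e : ℕ) : ∑ d ∈ range (e + 1), layer q d = q ^ e := by
  induction e with
  | zero => simp [layer]
  | succ e ih => rw [sum_range_succ, ih, layer_succ]; ring

/-- `(q-1) ∑_{d<e+1} d layer d = (q-1) e q^e - (q^e - 1)`. -/
lemma sum_mul_layer (q : ℝ) (e : ℕ) :
    (q - 1) * ∑ d ∈ range (e + 1), (d : ℝ) * layer q d = (q - 1) * e * q ^ e - (q ^ e - 1) := by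
  induction e with
  | zero => simp [layer]
  | succ e ih =>
    rw [sum_range_succ, mul_add, ih, layer_succ]
    push_cast
    ring

/-- summation against `f^(m)` of any function along `n = l + 2 d`, even case. -/
lemma sum_sph_even {s : ℝ} {l m e : ℕ} (hm : m = l + 2 * e) (g : ℕ → ℝ) {K : ℕ} (hK : e < K) :
    ∑ d ∈ range K, g d * sph s m (l + 2 * d) =
      (s⁻¹) ^ m * (g e - (s ^ 2 - 1) * ∑ d ∈ range e, g d) := by
  have h1 : ∑ d ∈ range K, g d * sph s m (l + 2 * d) =
      ∑ d ∈ range (e + 1), g d * sph s m (l + 2 * d) := by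
    symm
    apply Finset.sum_subset
    · intro x hx; simp only [Finset.mem_range] at *; omega
    · intro x _ hx2
      simp only [Finset.mem_range, not_lt] at hx2
      rw [sph_of_lt (by omega), mul_zero]
  rw [h1, sum_range_succ]
  have h2 : ∀ d ∈ range e, g d * sph s m (l + 2 * d) = g d * (-(s ^ 2 - 1) * (s⁻¹) ^ m) := by
    intro d hd
    simp only [Finset.mem_range] at hd
    rw [sph_of_even (by omega)]
    exact ⟨e - d, by omega⟩
  rw [Finset.sum_congr rfl h2, ← Finset.sum_mul, ← hm, sph_self]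
  ring

/-- odd case: no contribution. -/
lemma sum_sph_odd {s : ℝ} {l m : ℕ} (hm : ¬ Even (m + l)) (g : ℕ → ℝ) (K : ℕ) :
    ∑ d ∈ range K, g d * sph s m (l + 2 * d) = 0 := by
  apply Finset.sum_eq_zero
  intro d _
  rcases lt_trichotomy (l + 2 * d) m with h | h | h
  · rw [sph_of_odd h, mul_zero]
    rw [Nat.even_iff] at *
    omega
  · exfalso
    rw [Nat.even_iff] at hm
    omega
  · rw [sph_of_lt h, mul_zero]

lemma inv_pow_mul_pow {s : ℝ} (hs : s ≠ 0) (l e : ℕ) :
    (s⁻¹) ^ (l + 2 * e) * (s ^ 2) ^ e = (s⁻¹) ^ l := by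
  rw [pow_add, pow_mul, mul_assoc, ← mul_pow]
  have : (s⁻¹) ^ 2 * s ^ 2 = 1 := by
    rw [← mul_pow, inv_mul_cancel₀ hs, one_pow]
  rw [this, one_pow, mul_one]

/-- orbital integral of `f^(m)` at a hyperbolic element of translation length `l < m`. -/
theorem orbital_transl {s : ℝ} {l m K : ℕ} (hlm : l < m) (hK : m < l + 2 * K) :
    ∑ d ∈ range K, layer (s ^ 2) d * sph s m (l + 2 * d) = 0 := by
  by_cases hp : Even (m + l)
  · obtain ⟨e, he⟩ : ∃ e, m = l + 2 * e := by
      rw [Nat.even_iff] at hp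
      exact ⟨(m - l) / 2, by omega⟩
    obtain ⟨e', rfl⟩ : ∃ e', e = e' + 1 := ⟨e - 1, by omega⟩
    rw [sum_sph_even he _ (by omega), sum_layer, layer_succ]
    ring
  · exact sum_sph_odd hp _ _

/-- weighted orbital integral of `f^(m)` at a hyperbolic element of translation length `l < m`. -/
theorem weighted_transl {s : ℝ} (hs : s ≠ 0) {l m K : ℕ} (hlm : l < m) (hK : m < l + 2 * K) :
    ∑ d ∈ range K, ((d : ℝ) * layer (s ^ 2) d) * sph s m (l + 2 * d) =
      if Even (m + l) then (s⁻¹) ^ l - (s⁻¹) ^ m else 0 := by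
  split_ifs with hp
  · obtain ⟨e, he⟩ : ∃ e, m = l + 2 * e := by
      rw [Nat.even_iff] at hp
      exact ⟨(m - l) / 2, by omega⟩
    obtain ⟨e', rfl⟩ : ∃ e', e = e' + 1 := ⟨e - 1, by omega⟩
    rw [sum_sph_even he (fun d => (d : ℝ) * layer (s ^ 2) d) (by omega), sum_mul_layer,
      layer_succ]
    have h := inv_pow_mul_pow hs l (e' + 1)
    rw [← he] at h
    rw [← h]
    push_cast
    ring
  · exact sum_sph_odd hp _ _

/-- affine weights, translation length `l < m`. -/
theorem affine_transl {s : ℝ} (hs : s ≠ 0) (α β : ℝ) {l m K : ℕ} (hlm : l < m)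
    (hK : m < l + 2 * K) :
    ∑ d ∈ range K, ((α + β * d) * layer (s ^ 2) d) * sph s m (l + 2 * d) =
      if Even (m + l) then β * ((s⁻¹) ^ l - (s⁻¹) ^ m) else 0 := by
  have h1 : ∀ d ∈ range K, ((α + β * d) * layer (s ^ 2) d) * sph s m (l + 2 * d) =
      α * (layer (s ^ 2) d * sph s m (l + 2 * d)) +
      β * (((d : ℝ) * layer (s ^ 2) d) * sph s m (l + 2 * d)) := fun d _ => by ring
  rw [Finset.sum_congr rfl h1, Finset.sum_add_distrib, ← Finset.mul_sum, ← Finset.mul_sum,
    orbital_transl hlm hK, weighted_transl hs hlm hK]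
  split_ifs <;> ring

/-- the case of an element fixing the ball of radius `N` around the axis. -/
lemma sum_fix {N K : ℕ} (g : ℕ → ℝ) (hK : N < K) (h : ℕ → ℝ) :
    ∑ d ∈ range K, g d * h (2 * (d - N)) =
      (∑ d ∈ range (N + 1), g d) * h 0 +
        ∑ j ∈ range (K - (N + 1)), g (N + 1 + j) * h (2 * (j + 1)) := by
  obtain ⟨K', rfl⟩ : ∃ K', K = (N + 1) + K' := ⟨K - (N + 1), by omega⟩
  rw [Finset.sum_range_add, Finset.sum_mul]
  congr 1
  · apply Finset.sum_congr rfl
    intro d hd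
    simp only [Finset.mem_range] at hd
    rw [show d - N = 0 by omega]
  · rw [show N + 1 + K' - (N + 1) = K' by omega]
    apply Finset.sum_congr rfl
    intro j _
    rw [show N + 1 + j - N = j + 1 by omega]

lemma layer_add {q : ℝ} (N j : ℕ) : layer q (N + 1 + j) = q ^ N * layer q (j + 1) := by
  rw [show N + 1 + j = (N + j) + 1 by ring, layer_succ, layer_succ, pow_add]
  ring

/-- orbital integral of `f^(m)`, `0 < m`, at an element fixing the ball of radius `N` around
the axis. -/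
theorem orbital_fix {s : ℝ} {m N K : ℕ} (hm : 0 < m) (hK : m + N + 1 < K) :
    ∑ d ∈ range K, layer (s ^ 2) d * sph s m (2 * (d - N)) = 0 := by
  rw [sum_fix (fun d => layer (s ^ 2) d) (by omega) (sph s m), sum_layer]
  have h0 := orbital_transl (s := s) (l := 0) (m := m) (K := K - (N + 1) + 1) hm (by omega)
  rw [Finset.sum_range_succ'] at h0
  simp only [layer_zero, mul_zero, add_zero, one_mul, zero_add] at h0
  simp only [layer_add, mul_assoc, ← Finset.mul_sum]
  rw [← mul_add, add_comm (sph s m 0), h0, mul_zero]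

/-- weighted orbital integral of `f^(m)`, `0 < m`, at an element fixing the ball of radius `N`
around the axis. -/
theorem weighted_fix {s : ℝ} (hs : s ≠ 0) (hs1 : s ^ 2 ≠ 1) {m N K : ℕ} (hm : 0 < m)
    (hK : m + N + 1 < K) :
    ∑ d ∈ range K, ((d : ℝ) * layer (s ^ 2) d) * sph s m (2 * (d - N)) =
      if Even m then (s ^ 2) ^ N - (s⁻¹) ^ m else 0 := by
  rw [sum_fix (fun d => (d : ℝ) * layer (s ^ 2) d) (by omega) (sph s m)]
  have h0 := orbital_transl (s := s) (l := 0) (m := m) (K := K - (N + 1) + 1) hm (by omega)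
  have h1 := weighted_transl (s := s) hs (l := 0) (m := m) (K := K - (N + 1) + 1) hm (by omega)
  rw [Finset.sum_range_succ'] at h0 h1
  simp only [layer_zero, mul_zero, add_zero, one_mul, zero_add, Nat.cast_zero, zero_mul,
    pow_zero] at h0 h1
  have hsplit : ∀ j ∈ range (K - (N + 1)),
      (((N + 1 + j : ℕ) : ℝ) * layer (s ^ 2) (N + 1 + j)) * sph s m (2 * (j + 1)) =
      (s ^ 2) ^ N * (N * (layer (s ^ 2) (j + 1) * sph s m (2 * (j + 1)))) +
      (s ^ 2) ^ N * ((((j + 1 : ℕ) : ℝ) * layer (s ^ 2) (j + 1)) * sph s m (2 * (j + 1))) := by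
    intro j _
    rw [layer_add]
    push_cast
    ring
  rw [Finset.sum_congr rfl hsplit, Finset.sum_add_distrib, ← Finset.mul_sum, ← Finset.mul_sum,
    ← Finset.mul_sum, h1]
  have h0' : ∑ j ∈ range (K - (N + 1)), layer (s ^ 2) (j + 1) * sph s m (2 * (j + 1)) =
      - sph s m 0 := by linarith
  rw [h0']
  have hq : s ^ 2 - 1 ≠ 0 := sub_ne_zero.mpr hs1
  have hL : ∑ d ∈ range (N + 1), (d : ℝ) * layer (s ^ 2) d =
      N * (s ^ 2) ^ N - ((s ^ 2) ^ N - 1) / (s ^ 2 - 1) := by
    have := sum_mul_layer (s ^ 2) N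
    field_simp
    linarith
  rw [hL]
  split_ifs with he
  · rw [sph_of_even hm (by simpa using he)]
    field_simp
    ring
  · rw [sph_of_odd hm (by simpa using he)]
    ring

/-- affine weights at an element fixing the ball of radius `N` around the axis. -/
theorem affine_fix {s : ℝ} (hs : s ≠ 0) (hs1 : s ^ 2 ≠ 1) (α β : ℝ) {m N K : ℕ} (hm : 0 < m)
    (hK : m + N + 1 < K) :
    ∑ d ∈ range K, ((α + β * d) * layer (s ^ 2) d) * sph s m (2 * (d - N)) =
      if Even m then β * ((s ^ 2) ^ N - (s⁻¹) ^ m) else 0 := by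
  have h1 : ∀ d ∈ range K, ((α + β * d) * layer (s ^ 2) d) * sph s m (2 * (d - N)) =
      α * (layer (s ^ 2) d * sph s m (2 * (d - N))) +
      β * (((d : ℝ) * layer (s ^ 2) d) * sph s m (2 * (d - N))) := fun d _ => by ring
  rw [Finset.sum_congr rfl h1, Finset.sum_add_distrib, ← Finset.mul_sum, ← Finset.mul_sum,
    orbital_fix hm hK, weighted_fix hs hs1 hm hK]
  split_ifs <;> ring

/-! ### eigenvalues of the spherical functions -/

/-- The eigenvalues of the sphere operators `T_n` when `T_1` has eigenvalue `lam`: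
`T_1 T_n = T_{n+1} + q T_{n-1}` (`n ≥ 2`), `T_1^2 = T_2 + (q+1)`. -/
noncomputable def sphEig (q lam : ℂ) : ℕ → ℂ
  | 0 => 1
  | 1 => lam
  | 2 => lam ^ 2 - (q + 1)
  | (n + 3) => lam * sphEig q lam (n + 2) - q * sphEig q lam (n + 1)

lemma sphEig_zero (q lam : ℂ) : sphEig q lam 0 = 1 := rfl
lemma sphEig_one (q lam : ℂ) : sphEig q lam 1 = lam := rfl
lemma sphEig_two (q lam : ℂ) : sphEig q lam 2 = lam ^ 2 - (q + 1) := rfl
lemma sphEig_step (q lam : ℂ) (n : ℕ) :
    sphEig q lam (n + 3) = lam * sphEig q lam (n + 2) - q * sphEig q lam (n + 1) := rfl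

/-- The eigenvalue of the operator with radial kernel `f^(m)`, i.e. of `∑ n, f^(m)(n) T_n`. -/
noncomputable def sphSum (s : ℝ) (lam : ℂ) (m : ℕ) : ℂ :=
  ∑ n ∈ range (m + 1), (sph s m n : ℂ) * sphEig ((s : ℂ) ^ 2) lam n

/-- partial sums `∑_{j ≥ 1} T_{m-2j}`. -/
noncomputable def parSum (q lam : ℂ) : ℕ → ℂ
  | 0 => 0
  | 1 => 0
  | (n + 2) => parSum q lam n + sphEig q lam n

lemma sum_parSum (s : ℝ) (lam : ℂ) (m : ℕ) :
    ∑ n ∈ range m, (sph s m n : ℂ) * sphEig ((s : ℂ) ^ 2) lam n =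
      - ((s : ℂ) ^ 2 - 1) * ((s : ℂ)⁻¹) ^ m * parSum ((s : ℂ) ^ 2) lam m := by
  have key : ∀ (c : ℂ) (m : ℕ),
      ∑ n ∈ range m, (if Even (m - n) then c else 0) * sphEig ((s : ℂ) ^ 2) lam n =
      c * parSum ((s : ℂ) ^ 2) lam m := by
    intro c m
    induction m using Nat.twoStepInduction with
    | zero => simp [parSum]
    | one => simp [parSum]
    | more n ih _ =>
      rw [Finset.sum_range_succ, Finset.sum_range_succ]
      have h1 : ∑ x ∈ range n, (if Even (n + 2 - x) then c else 0) *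
          sphEig ((s : ℂ) ^ 2) lam x = ∑ x ∈ range n, (if Even (n - x) then c else 0) *
          sphEig ((s : ℂ) ^ 2) lam x := by
        apply Finset.sum_congr rfl
        intro x hx
        simp only [Finset.mem_range] at hx
        have : Even (n + 2 - x) ↔ Even (n - x) := by
          rw [Nat.even_iff, Nat.even_iff]; omega
        simp only [this]
      rw [h1, ih]
      have h2 : ¬ Even (n + 2 - (n + 1)) := by rw [Nat.even_iff]; omega
      have h3 : Even (n + 2 - n) := by rw [Nat.even_iff]; omega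
      rw [if_neg h2, if_pos h3, parSum]
      ring
  rw [← key]
  apply Finset.sum_congr rfl
  intro n hn
  simp only [Finset.mem_range] at hn
  by_cases he : Even (m - n)
  · rw [sph_of_even hn he, if_pos he]
    push_cast
    ring
  · rw [sph_of_odd hn he, if_neg he]
    simp

lemma sphSum_eq (s : ℝ) (lam : ℂ) (m : ℕ) :
    sphSum s lam m = ((s : ℂ)⁻¹) ^ m *
      (sphEig ((s : ℂ) ^ 2) lam m - ((s : ℂ) ^ 2 - 1) * parSum ((s : ℂ) ^ 2) lam m) := by
  rw [sphSum, Finset.sum_range_succ, sum_parSum, sph_self]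
  push_cast
  ring

lemma parSum_rec (q lam : ℂ) (n : ℕ) :
    parSum q lam (n + 3) - lam * parSum q lam (n + 2) + q * parSum q lam (n + 1) = 0 := by
  induction n using Nat.twoStepInduction with
  | zero =>
    simp only [parSum, sphEig]
    ring
  | one =>
    simp only [parSum, sphEig]
    ring
  | more n ih _ =>
    have e1 : parSum q lam (n + 2 + 3) = parSum q lam (n + 3) + sphEig q lam (n + 3) := rfl
    have e2 : parSum q lam (n + 2 + 2) = parSum q lam (n + 2) + sphEig q lam (n + 2) := rfl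
    have e3 : parSum q lam (n + 2 + 1) = parSum q lam (n + 1) + sphEig q lam (n + 1) := rfl
    linear_combination e1 - lam * e2 + q * e3 + ih + sphEig_step q lam n

/-- `∑_n f^(m)(n) T_n` acts by `z^m + z^{-m}` when `T_1` acts by `lam = s (z + z^{-1})`,
`m ≥ 1`. -/
theorem sphSum_satake {s : ℝ} (hs : s ≠ 0) {z : ℂ} (hz : z ≠ 0) {m : ℕ} (hm : 0 < m) :
    sphSum s ((s : ℂ) * (z + z⁻¹)) m = z ^ m + (z⁻¹) ^ m := by
  have hs' : (s : ℂ) ≠ 0 := by exact_mod_cast hs
  set lam : ℂ := (s : ℂ) * (z + z⁻¹) with hlam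
  set E : ℕ → ℂ := fun m => sphEig ((s : ℂ) ^ 2) lam m -
    ((s : ℂ) ^ 2 - 1) * parSum ((s : ℂ) ^ 2) lam m with hE
  have hrec : ∀ n, E (n + 3) = lam * E (n + 2) - (s : ℂ) ^ 2 * E (n + 1) := by
    intro n
    simp only [hE]
    rw [sphEig_step]
    linear_combination (-((s : ℂ) ^ 2 - 1)) * parSum_rec ((s : ℂ) ^ 2) lam n
  have key : ∀ n, E (n + 1) = (s : ℂ) ^ (n + 1) * (z ^ (n + 1) + (z⁻¹) ^ (n + 1)) := by
    intro n
    induction n using Nat.twoStepInduction with
    | zero =>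
      simp only [hE, parSum, sphEig, hlam]
      ring
    | one =>
      simp only [hE, parSum, sphEig, hlam]
      have hzz : z * z⁻¹ = 1 := mul_inv_cancel₀ hz
      linear_combination (2 * (s : ℂ) ^ 2) * hzz
    | more n ih1 ih2 =>
      rw [show n + 2 + 1 = n + 3 by ring, hrec, show n + 2 = n + 1 + 1 by ring, ih2, ih1, hlam]
      have hzz : z * z⁻¹ = 1 := mul_inv_cancel₀ hz
      have e1 : (z + z⁻¹) * (z ^ (n + 1 + 1) + z⁻¹ ^ (n + 1 + 1)) =
          z ^ (n + 3) + z⁻¹ ^ (n + 3) + (z * z⁻¹) * (z ^ (n + 1) + z⁻¹ ^ (n + 1)) := by ring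
      rw [hzz] at e1
      linear_combination (s : ℂ) ^ (n + 3) * e1
  obtain ⟨n, rfl⟩ : ∃ n, m = n + 1 := ⟨m - 1, by omega⟩
  rw [sphSum_eq]
  have := key n
  simp only [hE] at this
  rw [this, ← mul_assoc, ← mul_pow, inv_mul_cancel₀ hs', one_pow, one_mul]

end Fermat.Agent.LT.F
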