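import Fermat.Agent.LT.F.Flow

/-!
# LT/F: comparison of class integrals on two spaces (abstract)

`A` (the space of `L`) and `B` (the space of `K`) with actions of `Γ` and flows, `κA`, `κB` the
class functions `k(x, δ σ x)` and `b(k)(z, γ z)`, `P : A → B` a push-forward map.
-/

set_option linter.unusedSectionVars false

open MeasureTheory MulAction Set
open scoped ENNReal

namespace Fermat.Agent.LT.F

open Fermat.Agent.LT.B

section Ell

variable {Γ A B : Type*} [Group Γ] [Countable Γ] [MulAction Γ A] [MulAction Γ B]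
  [MeasurableSpace A] [MeasurableSpace B] [MeasurableConstSMul Γ A] [MeasurableConstSMul Γ B]
  {μ : Measure A} {ν : Measure B} [SMulInvariantMeasure Γ A μ] [SMulInvariantMeasure Γ B ν]

open Classical in
/-- the pulled back weight -/
noncomputable def pullW (S : Set A) (wA : A → ℝ≥0∞) (wB : B → ℝ≥0∞) (P : A → B) (x : A) : ℝ≥0∞ :=
  if x ∈ S then wB (P x) else wA x

omit [Countable Γ] [MeasurableConstSMul Γ A] [MeasurableConstSMul Γ B] in
theorem isWeight_pullW {S : Set A} (hS : MeasurableSet S) (hSinv : ∀ (t : Γ) x, t • x ∈ S ↔ x ∈ S)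
    {wA : A → ℝ≥0∞} {wB : B → ℝ≥0∞} (hwA : IsWeight Γ wA) (hwB : IsWeight Γ wB) {P : A → B}
    (hP : Measurable P) (heqv : ∀ (t : Γ) x, x ∈ S → P (t • x) = t • P x) :
    IsWeight Γ (pullW S wA wB P) where
  meas := by
    classical
    exact Measurable.ite hS (hwB.meas.comp hP) hwA.meas
  sum_eq x := by
    classical
    by_cases hx : x ∈ S
    · have : ∀ t : Γ, pullW S wA wB P (t • x) = wB (t • P x) := fun t => by
        rw [pullW, if_pos ((hSinv t x).mpr hx), heqv t x hx]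
      simp_rw [this]
      exact hwB.sum_eq _
    · have : ∀ t : Γ, pullW S wA wB P (t • x) = wA (t • x) := fun t => by
        rw [pullW, if_neg (fun h => hx ((hSinv t x).mp h))]
      simp_rw [this]
      exact hwA.sum_eq _

theorem integral_pull {wA : A → ℝ≥0∞} {wB : B → ℝ≥0∞} (hwA : IsWeight Γ wA) (hwB : IsWeight Γ wB)
    {P : A → B} (hP : Measurable P) {κ : A → ℂ} (hκ : Measurable κ)
    (hinv : ∀ (t : Γ) x, κ (t • x) = κ x)
    (heqv : ∀ (t : Γ) x, κ x ≠ 0 → P (t • x) = t • P x) :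
    ∫ x, (wA x).toReal • κ x ∂μ = ∫ x, (wB (P x)).toReal • κ x ∂μ := by
  have hS : MeasurableSet {x | κ x ≠ 0} := (measurableSet_eq_fun hκ measurable_const).compl
  have hSinv : ∀ (t : Γ) x, t • x ∈ {x | κ x ≠ 0} ↔ x ∈ {x | κ x ≠ 0} := fun t x => by
    simp only [Set.mem_ofPred_eq, hinv]
  have hW := isWeight_pullW hS hSinv hwA hwB hP heqv
  rw [integral_weight_eq hwA hW hκ.aestronglyMeasurable hinv]
  refine integral_congr_ae (Filter.Eventually.of_forall fun x => ?_)
  beta_reduce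
  by_cases hx : κ x = 0
  · simp [hx]
  · rw [pullW, if_pos (show x ∈ {x | κ x ≠ 0} from hx)]

/-- **Elliptic class identity.** -/
theorem class_ell {wA : A → ℝ≥0∞} {wB : B → ℝ≥0∞} (hwA : IsWeight Γ wA) (hwB : IsWeight Γ wB)
    {P : A → B} (hP : Measurable P) {κA : A → ℂ} (hκ : Measurable κA)
    (hinv : ∀ (t : Γ) x, κA (t • x) = κA x)
    (heqv : ∀ (t : Γ) x, κA x ≠ 0 → P (t • x) = t • P x)
    {κB κB' : B → ℂ}
    (hpush : ∀ Φ : B → ℝ, Measurable Φ → Integrable (fun z => κB' z * (Φ z : ℂ)) ν →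
      ∫ x, κA x * (Φ (P x) : ℂ) ∂μ = ∫ z, κB z * (Φ z : ℂ) ∂ν)
    (hint : Integrable (fun z => κB' z * ((wB z).toReal : ℂ)) ν) :
    ∫ x, (wA x).toReal • κA x ∂μ = ∫ z, (wB z).toReal • κB z ∂ν := by
  rw [integral_pull hwA hwB hP hκ hinv heqv]
  have h := hpush (fun z => (wB z).toReal) hwB.meas.ennreal_toReal hint
  have e1 : ∀ x, (wB (P x)).toReal • κA x = κA x * (((wB (P x)).toReal : ℝ) : ℂ) := fun x => by
    rw [Complex.real_smul, mul_comm]
  have e2 : ∀ z, (wB z).toReal • κB z = κB z * (((wB z).toReal : ℝ) : ℂ) := fun z => by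
    rw [Complex.real_smul, mul_comm]
  simp_rw [e1, e2]
  exact h

end Ell

section Hyp

variable {Γ A B : Type*} [Group Γ] [Countable Γ] [MulAction Γ A] [MulAction Γ B]
  [MeasurableSpace A] [MeasurableSpace B] [MeasurableConstSMul Γ A] [MeasurableConstSMul Γ B]
  {μ : Measure A} {ν : Measure B} [SMulInvariantMeasure Γ A μ] [SMulInvariantMeasure Γ B ν]
  [SFinite μ] [SFinite ν] {fA : Flow Γ μ} {fB : Flow Γ ν}

/-- the slab function `1_{0 ≤ u < 1}` -/
noncomputable def slab1 {X : Type*} (u : X → ℝ) (x : X) : ℝ := if 0 ≤ u x ∧ u x < 1 then 1 else 0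

theorem measurable_slab1 {u : B → ℝ} (hu : Measurable u) : Measurable (slab1 u) :=
  Measurable.ite (Flow.measurableSet_slab hu) measurable_const measurable_const

theorem slabInt_def {X : Type*} [MeasurableSpace X] (w : X → ℝ≥0∞) (u : X → ℝ) (m : Measure X)
    (F : X → ℂ) :
    Flow.slabInt w u m F = ∫ x, (w x).toReal • (slab1 u x • F x) ∂m := rfl

open Classical in
/-- pulled back height -/
noncomputable def pullU (S : Set A) (uA : A → ℝ) (uB : B → ℝ) (P : A → B) (x : A) : ℝ :=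
  if x ∈ S then uB (P x) else uA x

theorem isHt_pullU {S : Set A} (hS : MeasurableSet S) (hSinv : ∀ (t : Γ) x, t • x ∈ S ↔ x ∈ S)
    (hSφ : ∀ s x, fA.φ s x ∈ S ↔ x ∈ S)
    {uA : A → ℝ} {uB : B → ℝ} (huA : fA.IsHt uA) (huB : fB.IsHt uB) {P : A → B}
    (hP : Measurable P) (heqv : ∀ (t : Γ) x, x ∈ S → P (t • x) = t • P x)
    (hφ : ∀ s x, x ∈ S → P (fA.φ s x) = fB.φ s (P x)) :
    fA.IsHt (pullU S uA uB P) where
  meas := by
    classical
    exact Measurable.ite hS (huB.meas.comp hP) huA.meas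
  inv t x := by
    classical
    by_cases hx : x ∈ S
    · rw [pullU, if_pos ((hSinv t x).mpr hx), heqv t x hx, huB.inv, pullU, if_pos hx]
    · rw [pullU, if_neg (fun h => hx ((hSinv t x).mp h)), huA.inv, pullU, if_neg hx]
  flow s x := by
    classical
    by_cases hx : x ∈ S
    · rw [pullU, if_pos ((hSφ s x).mpr hx), hφ s x hx, huB.flow, pullU, if_pos hx]
    · rw [pullU, if_neg (fun h => hx ((hSφ s x).mp h)), huA.flow, pullU, if_neg hx]

/-- Push-forward data for a class. -/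
structure PushData (fA : Flow Γ μ) (fB : Flow Γ ν) (κA : A → ℂ) (κB κB' : B → ℂ) (P : A → B) :
    Prop where
  meas : Measurable P
  eqv : ∀ (t : Γ) x, κA x ≠ 0 → P (t • x) = t • P x
  flow : ∀ s x, κA x ≠ 0 → P (fA.φ s x) = fB.φ s (P x)
  push : ∀ Φ : B → ℝ, Measurable Φ → Integrable (fun z => κB' z * (Φ z : ℂ)) ν →
      Integrable (fun x => κA x * (Φ (P x) : ℂ)) μ ∧
      ∫ x, κA x * (Φ (P x) : ℂ) ∂μ = ∫ z, κB z * (Φ z : ℂ) ∂ν

/-- **Slab integrals can be computed on `B`.** -/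
theorem slab_push {κA : A → ℂ} {κB κB' : B → ℂ} {P : A → B} (hP : PushData fA fB κA κB κB' P)
    (hκ : Measurable κA) (hinv : ∀ (t : Γ) x, κA (t • x) = κA x)
    (hφ : ∀ s x, κA (fA.φ s x) = κA x)
    {wA : A → ℝ≥0∞} {wB : B → ℝ≥0∞} (hwA : IsWeight Γ wA) (hwB : IsWeight Γ wB)
    {uA : A → ℝ} {uB : B → ℝ} (huA : fA.IsHt uA) (huB : fB.IsHt uB)
    {g : B → ℝ} (hg : Measurable g) {gA : A → ℝ} (hgA : Measurable gA)
    (hgAinv : ∀ (t : Γ) x, gA (t • x) = gA x) (hgAφ : ∀ s x, gA (fA.φ s x) = gA x)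
    (hgg : ∀ x, κA x ≠ 0 → gA x = g (P x))
    (hint : Integrable (fun z => κB' z * ((((wB z).toReal * (slab1 uB z * g z) : ℝ)) : ℂ)) ν) :
    Flow.slabL wA uA μ (fun x => ‖gA x • κA x‖ₑ) ≠ ∞ ∧
    Flow.slabInt wA uA μ (fun x => gA x • κA x) = Flow.slabInt wB uB ν (fun z => g z • κB z) := by
  have hS : MeasurableSet {x | κA x ≠ 0} := (measurableSet_eq_fun hκ measurable_const).compl
  have hSinv : ∀ (t : Γ) x, t • x ∈ {x | κA x ≠ 0} ↔ x ∈ {x | κA x ≠ 0} := fun t x => by
    simp only [Set.mem_ofPred_eq, hinv]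
  have hSφ : ∀ s x, fA.φ s x ∈ {x | κA x ≠ 0} ↔ x ∈ {x | κA x ≠ 0} := fun s x => by
    simp only [Set.mem_ofPred_eq, hφ]
  have hW := isWeight_pullW hS hSinv hwA hwB hP.meas hP.eqv
  have hU := isHt_pullU hS hSinv hSφ huA huB hP.meas hP.eqv hP.flow
  set F : A → ℂ := fun x => gA x • κA x with hF
  have hFm : Measurable F := hgA.smul hκ
  have hFinv : ∀ (t : Γ) x, F (t • x) = F x := fun t x => by simp only [hF, hgAinv, hinv]
  have hFφ : ∀ s x, F (fA.φ s x) = F x := fun s x => by simp only [hF, hgAφ, hφ]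
  obtain ⟨hi, he⟩ := hP.push (fun z => (wB z).toReal * (slab1 uB z * g z))
    (hwB.meas.ennreal_toReal.mul ((measurable_slab1 huB.meas).mul hg)) hint
  -- the integrand on A
  have hpt : ∀ x, (pullW {x | κA x ≠ 0} wA wB P x).toReal •
      (slab1 (pullU {x | κA x ≠ 0} uA uB P) x • F x) =
      κA x * ((((wB (P x)).toReal * (slab1 uB (P x) * g (P x)) : ℝ)) : ℂ) := by
    intro x
    by_cases hx : κA x = 0
    · simp [hF, hx]
    · have hx' : x ∈ {x | κA x ≠ 0} := hx
      simp only [hF]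
      rw [pullW, if_pos hx', hgg x hx]
      have e : slab1 (pullU {x | κA x ≠ 0} uA uB P) x = slab1 uB (P x) := by
        unfold slab1 pullU
        rw [if_pos hx']
      rw [e, Complex.real_smul, Complex.real_smul, Complex.real_smul]
      push_cast
      ring
  have hL : Flow.slabL (pullW {x | κA x ≠ 0} wA wB P) (pullU {x | κA x ≠ 0} uA uB P) μ
      (fun x => ‖F x‖ₑ) ≠ ∞ := by
    have h1 := hi.2
    unfold HasFiniteIntegral at h1
    refine ne_of_eq_of_ne (lintegral_congr fun x => ?_) h1.ne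
    beta_reduce
    have e : ‖(pullW {x | κA x ≠ 0} wA wB P x).toReal •
        (slab1 (pullU {x | κA x ≠ 0} uA uB P) x • F x)‖ₑ = pullW {x | κA x ≠ 0} wA wB P x *
        ((if 0 ≤ pullU {x | κA x ≠ 0} uA uB P x ∧ pullU {x | κA x ≠ 0} uA uB P x < 1
          then 1 else 0) * ‖F x‖ₑ) := by
      rw [enorm_smul, Real.enorm_eq_ofReal ENNReal.toReal_nonneg,
        ENNReal.ofReal_toReal (hW.ne_top x), enorm_smul]
      unfold slab1
      split_ifs <;> simp
    rw [← hpt x, e]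
  have hLA : Flow.slabL wA uA μ (fun x => ‖F x‖ₑ) ≠ ∞ := by
    rw [Flow.slabL_eq hwA hW huA hU hFm.enorm (fun t x => by rw [hFinv])
      (fun s x => by rw [hFφ])]
    exact hL
  refine ⟨hLA, ?_⟩
  rw [Flow.slabInt_eq hwA hW huA hU hFm hFinv hFφ hLA, slabInt_def, slabInt_def]
  simp_rw [hpt]
  rw [he]
  refine integral_congr_ae (Filter.Eventually.of_forall fun z => ?_)
  beta_reduce
  rw [Complex.real_smul, Complex.real_smul, Complex.real_smul]
  push_cast
  ring

/-- Summation over places of the weighted slab integrals. -/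
theorem slabInt_tsum {V : Type*} [Countable V] {wA : A → ℝ≥0∞} (hwA : IsWeight Γ wA) {uA : A → ℝ}
    (huA : fA.IsHt uA) {κ : A → ℂ} (hκ : Measurable κ) {g : V → A → ℝ} (hg : ∀ v, Measurable (g v))
    (hneg : ∀ v x, g v x ≤ 0) {ω : A → ℝ} (hω : ∀ x, HasSum (fun v => g v x) (ω x))
    (hfin : Flow.slabL wA uA μ (fun x => ‖ω x • κ x‖ₑ) ≠ ∞) :
    HasSum (fun v => Flow.slabInt wA uA μ (fun x => g v x • κ x))
      (Flow.slabInt wA uA μ (fun x => ω x • κ x)) := by
  have hω0 : ∀ x, ω x ≤ 0 := fun x => by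
    rw [← (hω x).tsum_eq]; exact tsum_nonpos fun v => hneg v x
  have hle : ∀ v x, |g v x| ≤ |ω x| := by
    intro v x
    rw [abs_of_nonpos (hneg v x), abs_of_nonpos (hω0 x)]
    have := (hω x).neg
    have h2 := le_hasSum this v (fun j _ => neg_nonneg.mpr (hneg j x))
    exact h2
  have hωm : Measurable ω := by
    have : ω = fun x => ∑' v, g v x := funext fun x => (hω x).tsum_eq.symm
    rw [this]
    exact Measurable.tsum hg
  -- total absolute integrability
  have habs : ∀ x, HasSum (fun v => |g v x|) |ω x| := by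
    intro x
    have h1 : ∀ v, |g v x| = - g v x := fun v => abs_of_nonpos (hneg v x)
    have h2 : |ω x| = - ω x := abs_of_nonpos (hω0 x)
    simp_rw [h1, h2]
    exact (hω x).neg
  have hval : ∀ x (r : ℝ), ‖(wA x).toReal • (slab1 uA x • (r • κ x))‖ =
      (wA x).toReal * (slab1 uA x * (|r| * ‖κ x‖)) := by
    intro x r
    rw [norm_smul, norm_smul, norm_smul, Real.norm_eq_abs, Real.norm_eq_abs, Real.norm_eq_abs,
      abs_of_nonneg ENNReal.toReal_nonneg]
    congr 2
    unfold slab1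
    split_ifs <;> simp
  have hI : Integrable (fun x => (wA x).toReal • (slab1 uA x • (ω x • κ x))) μ :=
    Flow.integrable_slab hwA huA.meas (hωm.smul hκ).aestronglyMeasurable hfin
  have hIv : ∀ v, Integrable (fun x => (wA x).toReal • (slab1 uA x • (g v x • κ x))) μ := by
    intro v
    refine hI.mono ?_ (Filter.Eventually.of_forall fun x => ?_)
    · exact (hwA.meas.ennreal_toReal.smul ((measurable_slab1 huA.meas).smul
        ((hg v).smul hκ))).aestronglyMeasurable
    · rw [hval, hval]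
      have : 0 ≤ slab1 uA x := by unfold slab1; split_ifs <;> norm_num
      exact mul_le_mul_of_nonneg_left (mul_le_mul_of_nonneg_left
        (mul_le_mul_of_nonneg_right (hle v x) (norm_nonneg _)) this) ENNReal.toReal_nonneg
  have hsum : Summable fun v => ∫ x, ‖(wA x).toReal • (slab1 uA x • (g v x • κ x))‖ ∂μ := by
    refine summable_of_sum_le (c := ∫ x, ‖(wA x).toReal • (slab1 uA x • (ω x • κ x))‖ ∂μ)
      (fun v => integral_nonneg fun x => norm_nonneg _) fun s => ?_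
    rw [← integral_finsetSum _ (fun v _ => (hIv v).norm)]
    refine integral_mono (integrable_finsetSum _ fun v _ => (hIv v).norm) hI.norm fun x => ?_
    simp_rw [hval]
    rw [← Finset.mul_sum, ← Finset.mul_sum, ← Finset.sum_mul]
    have : 0 ≤ slab1 uA x := by unfold slab1; split_ifs <;> norm_num
    gcongr
    exact sum_le_hasSum s (fun v _ => abs_nonneg _) (habs x)
  have := hasSum_integral_of_summable_integral_norm hIv hsum
  have e : Flow.slabInt wA uA μ (fun x => ω x • κ x) =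
      ∫ x, ∑' v, (wA x).toReal • (slab1 uA x • (g v x • κ x)) ∂μ := by
    rw [slabInt_def]
    refine integral_congr_ae (Filter.Eventually.of_forall fun x => ?_)
    beta_reduce
    have h1 := (((hω x).smul_const (κ x)).const_smul (slab1 uA x)).const_smul (wA x).toReal
    exact h1.tsum_eq.symm
  rw [e]
  exact this

/-- **Hyperbolic class identity**, abstract form. -/
theorem class_hyp {κA : A → ℂ} {κB κB' : B → ℂ}
    (hκA : Measurable κA) (hκB : Measurable κB)
    (hinvA : ∀ (t : Γ) x, κA (t • x) = κA x) (hφA : ∀ s x, κA (fA.φ s x) = κA x)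
    (hinvB : ∀ (t : Γ) x, κB (t • x) = κB x) (hφB : ∀ s x, κB (fB.φ s x) = κB x)
    {wA : A → ℝ≥0∞} {wB : B → ℝ≥0∞} (hwA : IsWeight Γ wA) (hwB : IsWeight Γ wB)
    {uA vA : A → ℝ} {uB vB : B → ℝ} (huA : fA.IsHt uA) (huB : fB.IsHt uB)
    (hvA : Flow.IsHt' fA vA) (hvB : Flow.IsHt' fB vB)
    (hωA : ∀ x, uA x + vA x ≤ 0) (hωB : ∀ x, uB x + vB x ≤ 0)
    {P₀ : A → B} (hP₀ : PushData fA fB κA κB κB' P₀)
    (hle : ∀ z, ‖κB z‖ ≤ ‖κB' z‖) (hκB' : Measurable κB')
    (hinvB' : ∀ (t : Γ) x, κB' (t • x) = κB' x) (hφB' : ∀ s x, κB' (fB.φ s x) = κB' x)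
    {V : Type*} [Countable V] {gA : V → A → ℝ} {gB : V → B → ℝ}
    (hgA : ∀ v, Measurable (gA v)) (hgB : ∀ v, Measurable (gB v))
    (hgA0 : ∀ v x, gA v x ≤ 0) (hgB0 : ∀ v x, gB v x ≤ 0)
    (hsA : ∀ x, HasSum (fun v => gA v x) (uA x + vA x))
    (hsB : ∀ x, HasSum (fun v => gB v x) (uB x + vB x))
    (hv : ∀ v, Flow.slabL wB uB ν (fun z => ‖gB v z • κB' z‖ₑ) ≠ ∞ →
      Flow.slabInt wA uA μ (fun x => gA v x • κA x) =
        Flow.slabInt wB uB ν (fun z => gB v z • κB z))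
    {t : ℝ} (ht : 0 < t)
    (hintA : ∫⁻ x, wA x * (if uA x ≤ t ∧ vA x ≤ t then ‖κA x‖ₑ else 0) ∂μ ≠ ∞)
    (hintB : ∫⁻ z, wB z * (if uB z ≤ t ∧ vB z ≤ t then ‖κB' z‖ₑ else 0) ∂ν ≠ ∞) :
    ∫ x, (wA x).toReal • (if uA x ≤ t ∧ vA x ≤ t then κA x else 0) ∂μ =
      ∫ z, (wB z).toReal • (if uB z ≤ t ∧ vB z ≤ t then κB z else 0) ∂ν := by
  have hleE : ∀ z, ‖κB z‖ₑ ≤ ‖κB' z‖ₑ := fun z => enorm_le_iff_norm_le.mpr (hle z)
  have hintB0 : ∫⁻ z, wB z * (if uB z ≤ t ∧ vB z ≤ t then ‖κB z‖ₑ else 0) ∂ν ≠ ∞ := by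
    refine ne_top_of_le_ne_top hintB (lintegral_mono fun z => ?_)
    gcongr
    split_ifs
    · exact hleE z
    · exact le_rfl
  obtain ⟨cA1, cA2, eA⟩ := Flow.flow_trunc hwA huA hvA hωA hκA hinvA hφA ht hintA
  obtain ⟨cB1, cB2, eB⟩ := Flow.flow_trunc hwB huB hvB hωB hκB hinvB hφB ht hintB0
  obtain ⟨cB1', cB2', -⟩ := Flow.flow_trunc hwB huB hvB hωB hκB' hinvB' hφB' ht hintB
  rw [eA, eB]
  have hint0 : ∀ g : B → ℝ, Measurable g → Flow.slabL wB uB ν (fun z => ‖g z • κB' z‖ₑ) ≠ ∞ →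
      Integrable (fun z => κB' z * ((((wB z).toReal * (slab1 uB z * g z) : ℝ)) : ℂ)) ν := by
    intro g hg h
    have := Flow.integrable_slab hwB huB.meas (hg.smul hκB').aestronglyMeasurable h
    refine this.congr (Filter.Eventually.of_forall fun z => ?_)
    beta_reduce
    change (wB z).toReal • (slab1 uB z • (g z • κB' z)) = _
    rw [Complex.real_smul, Complex.real_smul, Complex.real_smul]
    push_cast
    ring
  congr 1
  · -- coefficient of t
    congr 1
    have h1 := slab_push hP₀ hκA hinvA hφA hwA hwB huA huB (g := fun _ => 1) measurable_const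
      (gA := fun _ => 1) measurable_const (fun _ _ => rfl) (fun _ _ => rfl) (fun _ _ => rfl)
      (hint0 _ measurable_const (by simpa using cB1'))
    simpa using h1.2
  · -- weighted term
    have hA := slabInt_tsum hwA huA hκA hgA hgA0 hsA cA2
    have hB := slabInt_tsum hwB huB hκB hgB hgB0 hsB cB2
    have hvv : ∀ v, Flow.slabInt wA uA μ (fun x => gA v x • κA x) =
        Flow.slabInt wB uB ν (fun z => gB v z • κB z) := by
      intro v
      refine hv v (ne_top_of_le_ne_top cB2' (lintegral_mono fun z => ?_))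
      gcongr
      beta_reduce
      rw [enorm_smul, enorm_smul]
      gcongr
      rw [enorm_le_iff_norm_le, Real.norm_eq_abs, Real.norm_eq_abs, abs_of_nonpos (hgB0 v z),
        abs_of_nonpos (hωB z)]
      exact le_hasSum (hsB z).neg v (fun j _ => neg_nonneg.mpr (hgB0 j z))
    simp_rw [hvv] at hA
    exact hA.unique hB

end Hyp

end Fermat.Agent.LT.F
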