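import Fermat.Agent.LT.F.Pairs

/-!
# LT/F: expansion of a twisted trace over classes
-/

set_option linter.unusedSectionVars false

open MeasureTheory MulAction Set
open scoped ENNReal

namespace Fermat.Agent.LT.F

open Fermat.Agent.LT.B

/-- A family of representatives of (some) twisted conjugacy classes with their twisted
centralisers. -/
structure Reps (Γ : Type*) [Group Γ] (τ : Γ →* Γ) (ι : Type*) where
  /-- representatives -/
  r : ι → Γ
  /-- twisted centralisers -/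
  Z : ι → Subgroup Γ
  mem_Z : ∀ i t, t ∈ Z i ↔ t * r i * (τ t)⁻¹ = r i
  inj : ∀ i j g, g * r i * (τ g)⁻¹ = r j → i = j

namespace Reps

variable {Γ : Type*} [Group Γ] {τ : Γ →* Γ} {ι : Type*} (R : Reps Γ τ ι)

/-- `γ` is in one of the classes -/
def Mem (γ : Γ) : Prop := ∃ i g, g * γ * (τ g)⁻¹ = R.r i

/-- `γ` is in the class `i` -/
def MemI (i : ι) (γ : Γ) : Prop := ∃ g, g * γ * (τ g)⁻¹ = R.r i

variable {R}

theorem conj_mul (g h γ : Γ) : g * (h * γ * (τ h)⁻¹) * (τ g)⁻¹ = (g * h) * γ * (τ (g * h))⁻¹ := by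
  rw [map_mul, _root_.mul_inv_rev]; group

theorem memI_conj {i : ι} {g γ : Γ} : R.MemI i (g * γ * (τ g)⁻¹) ↔ R.MemI i γ := by
  constructor
  · rintro ⟨h, hh⟩
    exact ⟨h * g, by rw [← hh, conj_mul]⟩
  · rintro ⟨h, hh⟩
    refine ⟨h * g⁻¹, ?_⟩
    rw [conj_mul, inv_mul_cancel_right, hh]

theorem memI_unique {i j : ι} {γ : Γ} (hi : R.MemI i γ) (hj : R.MemI j γ) : i = j := by
  obtain ⟨g, hg⟩ := hi
  obtain ⟨h, hh⟩ := hj
  refine R.inj i j (h * g⁻¹) ?_
  rw [← hg, conj_mul, inv_mul_cancel_right, hh]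

variable {X : Type*} [MulAction Γ X] [MeasurableSpace X]

open Classical in
theorem tsum_class {i : ι} {wi : X → ℝ≥0∞} (hwi : IsWeight (R.Z i) wi) (x : X) {γ : Γ}
    (hγ : R.MemI i γ) :
    ∑' g : Γ, (if g * γ * (τ g)⁻¹ = R.r i then wi (g • x) else 0) = 1 := by
  obtain ⟨g₁, h1⟩ := hγ
  rw [← hwi.sum_eq (g₁ • x)]
  have hinj : Function.Injective (fun t : R.Z i => (t : Γ) * g₁) := fun a b h =>
    Subtype.ext (mul_right_cancel h)
  rw [← hinj.tsum_eq]
  · refine tsum_congr fun t => ?_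
    rw [if_pos]
    · rw [mul_smul]; rfl
    · rw [← conj_mul, h1]
      exact (R.mem_Z i t).mp t.2
  · intro g hg
    simp only [Function.mem_support, ne_eq, ite_eq_right_iff, Classical.not_imp] at hg
    refine ⟨⟨g * g₁⁻¹, (R.mem_Z i _).mpr ?_⟩, by simp⟩
    rw [← h1, conj_mul, inv_mul_cancel_right, hg.1]
    exact h1.symm ▸ rfl

variable (R)

open Classical in
/-- the weight concentrated on the representatives -/
noncomputable def wC (w : X → ℝ≥0∞) (wi : ι → X → ℝ≥0∞) (p : TwP τ X) : ℝ≥0∞ :=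
  if R.Mem p.2 then ∑' i, (if p.2 = R.r i then wi i p.1 else 0) else w p.1

variable {R}

theorem mem_iff {γ : Γ} : R.Mem γ ↔ ∃ i, R.MemI i γ := Iff.rfl

theorem mem_conj {g γ : Γ} : R.Mem (g * γ * (τ g)⁻¹) ↔ R.Mem γ := by
  rw [mem_iff, mem_iff]
  exact exists_congr fun i => memI_conj

variable [MeasurableSpace Γ] [Countable Γ] [DiscreteMeasurableSpace Γ] [MeasurableConstSMul Γ X]
  [Countable ι]

theorem isWeight_wC {w : X → ℝ≥0∞} {wi : ι → X → ℝ≥0∞} (hw : IsWeight Γ w)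
    (hwi : ∀ i, IsWeight (R.Z i) (wi i)) : IsWeight Γ (R.wC w wi) where
  meas := by
    classical
    refine measurable_from_prod_countable_left (f := R.wC w wi) fun γ => ?_
    unfold wC
    simp only
    split_ifs
    · refine Measurable.tsum fun i => ?_
      split_ifs
      · exact (hwi i).meas
      · exact measurable_const
    · exact hw.meas
  sum_eq p := by
    classical
    by_cases h : R.Mem p.2
    · obtain ⟨i, hi⟩ := mem_iff.mp h
      have h1 : ∀ g : Γ, R.wC w wi (g • p) =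
          (if g * p.2 * (τ g)⁻¹ = R.r i then wi i (g • p.1) else 0) := by
        intro g
        change (if R.Mem (g * p.2 * (τ g)⁻¹) then
          ∑' j, (if g * p.2 * (τ g)⁻¹ = R.r j then wi j (g • p.1) else 0) else w (g • p.1)) = _
        rw [if_pos (mem_conj.mpr h), tsum_eq_single i]
        intro j hj
        rw [if_neg]
        intro h'
        exact hj (memI_unique (γ := p.2) (⟨g, h'⟩ : R.MemI j p.2) hi)
      simp_rw [h1]
      exact tsum_class (hwi i) p.1 hi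
    · have h1 : ∀ g : Γ, R.wC w wi (g • p) = w (g • p.1) := by
        intro g
        change (if R.Mem (g * p.2 * (τ g)⁻¹) then
          ∑' j, (if g * p.2 * (τ g)⁻¹ = R.r j then wi j (g • p.1) else 0) else w (g • p.1)) = _
        rw [if_neg (fun h' => h (mem_conj.mp h'))]
      simp_rw [h1]
      exact hw.sum_eq p.1

variable {E : Type*} [NormedAddCommGroup E] [NormedSpace ℝ E] [CompleteSpace E]
  [SecondCountableTopology E]
variable {μ : Measure X} [SFinite μ] [SMulInvariantMeasure Γ X μ]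

theorem self_mem (i : ι) : R.Mem (R.r i) := ⟨i, 1, by simp⟩

open Classical in
theorem wC_r (w : X → ℝ≥0∞) (wi : ι → X → ℝ≥0∞) (i : ι) (x : X) :
    R.wC w wi ((x, R.r i) : X × Γ) = wi i x := by
  change (if R.Mem (R.r i) then ∑' j, (if R.r i = R.r j then wi j x else 0) else w x) = _
  rw [if_pos (self_mem i), tsum_eq_single i]
  · rw [if_pos rfl]
  · intro j hj
    rw [if_neg]
    intro h
    exact hj (R.inj i j 1 (by simp [h])).symm

theorem wC_eq_zero (w : X → ℝ≥0∞) (wi : ι → X → ℝ≥0∞) {γ : Γ} (hγ : R.Mem γ)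
    (h : ∀ i, γ ≠ R.r i) (x : X) : R.wC w wi ((x, γ) : X × Γ) = 0 := by
  classical
  change (if R.Mem γ then ∑' j, (if γ = R.r j then wi j x else 0) else w x) = _
  rw [if_pos hγ]
  simp [h]

theorem r_injective : Function.Injective R.r := fun i j h => R.inj i j 1 (by simp [h])

/-- **Expansion over classes.** -/
theorem class_expand {w : X → ℝ≥0∞} {wi : ι → X → ℝ≥0∞} (hw : IsWeight Γ w)
    (hwi : ∀ i, IsWeight (R.Z i) (wi i))
    {Φ : Γ → X → E} (hΦ : ∀ γ, AEStronglyMeasurable (Φ γ) μ)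
    (hinv : ∀ g γ x, Φ (g * γ * (τ g)⁻¹) (g • x) = Φ γ x)
    (hsupp : ∀ γ x, Φ γ x ≠ 0 → R.Mem γ)
    (hint : ∫⁻ x, w x * ∑' γ : Γ, ‖Φ γ x‖ₑ ∂μ ≠ ∞) :
    ∑' i, ∫⁻ x, wi i x * ‖Φ (R.r i) x‖ₑ ∂μ = ∫⁻ x, w x * ∑' γ : Γ, ‖Φ γ x‖ₑ ∂μ ∧
    HasSum (fun i => ∫ x, (wi i x).toReal • Φ (R.r i) x ∂μ)
      (∫ x, (w x).toReal • ∑' γ : Γ, Φ γ x ∂μ) := by
  set F : TwP τ X → E := fun p => Φ p.2 p.1 with hF
  have hFinv : ∀ (g : Γ) (p : TwP τ X), F (g • p) = F p := fun g p => hinv g p.2 p.1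
  have hW1 : IsWeight Γ (fun p : TwP τ X => w p.1) :=
    IsWeight.comp hw (Z := TwP τ X) (f := fun p => p.1) measurable_fst (fun _ _ => rfl)
  have hW2 := R.isWeight_wC hw hwi
  have hFae := TwP.aestronglyMeasurable_meas τ (F := F) (μ := μ) hΦ
  have hmain := integral_weight_eq (μ := TwP.meas τ μ) hW1 hW2 hFae hFinv
  have hl : ∫⁻ p, w p.1 * ‖F p‖ₑ ∂TwP.meas τ μ = ∫⁻ p, R.wC w wi p * ‖F p‖ₑ ∂TwP.meas τ μ :=
    hW1.lintegral_eq hW2 hFae.enorm (fun g p => by rw [hFinv])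
  have hprod : ∀ v : TwP τ X → ℝ≥0∞, Measurable v →
      ∫⁻ p, v p * ‖F p‖ₑ ∂TwP.meas τ μ = ∫⁻ x, ∑' γ : Γ, v (x, γ) * ‖F (x, γ)‖ₑ ∂μ := by
    intro v hv
    have hae : AEMeasurable (fun p : X × Γ => v p * ‖F p‖ₑ) (μ.prod (Measure.count : Measure Γ)) :=
      AEMeasurable.mul (show AEMeasurable (fun p : X × Γ => v p) _ from
        (show Measurable (fun p : X × Γ => v p) from hv).aemeasurable)
        (show AEMeasurable (fun p : X × Γ => ‖F p‖ₑ) _ from hFae.enorm)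
    change ∫⁻ p : X × Γ, v p * ‖F p‖ₑ ∂(μ.prod (Measure.count : Measure Γ)) = _
    rw [lintegral_prod _ hae]
    congr 1
    ext x
    exact lintegral_count _
  rw [hprod _ hW1.meas, hprod _ hW2.meas] at hl
  have hl1 : ∫⁻ x, ∑' γ : Γ, w x * ‖F (x, γ)‖ₑ ∂μ ≠ ∞ := by
    simpa only [ENNReal.tsum_mul_left] using hint
  have hl2 : ∫⁻ x, ∑' γ : Γ, R.wC w wi (x, γ) * ‖F (x, γ)‖ₑ ∂μ ≠ ∞ := by
    rw [← hl]; exact hl1
  -- reduction of the sums over Γ to sums over ι
  have hred : ∀ x, ∑' γ : Γ, R.wC w wi (x, γ) * ‖F (x, γ)‖ₑ =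
      ∑' i, wi i x * ‖Φ (R.r i) x‖ₑ := by
    intro x
    rw [← (R.r_injective).tsum_eq]
    · refine tsum_congr fun i => ?_
      rw [R.wC_r]
    · intro γ hγ
      by_contra hc
      apply hγ
      have hne : ∀ i, γ ≠ R.r i := fun i h => hc ⟨i, h.symm⟩
      by_cases hz : Φ γ x = 0
      · simp [hF, hz]
      · exact mul_eq_zero_of_left (R.wC_eq_zero w wi (hsupp γ x hz) hne x) _
  have hredE : ∀ x, ∑' γ : Γ, (R.wC w wi (x, γ)).toReal • F (x, γ) =
      ∑' i, (wi i x).toReal • Φ (R.r i) x := by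
    intro x
    rw [← (R.r_injective).tsum_eq]
    · refine tsum_congr fun i => ?_
      rw [R.wC_r]
    · intro γ hγ
      by_contra hc
      apply hγ
      have hne : ∀ i, γ ≠ R.r i := fun i h => hc ⟨i, h.symm⟩
      by_cases hz : Φ γ x = 0
      · simp [hF, hz]
      · exact (congrArg (fun t : ℝ≥0∞ => t.toReal • F (x, γ))
          (R.wC_eq_zero w wi (hsupp γ x hz) hne x)).trans (by simp)
  have hmi : ∀ i, AEMeasurable (fun x => wi i x * ‖Φ (R.r i) x‖ₑ) μ := fun i =>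
    (hwi i).meas.aemeasurable.mul (hΦ _).enorm
  have hsum : ∑' i, ∫⁻ x, wi i x * ‖Φ (R.r i) x‖ₑ ∂μ =
      ∫⁻ x, ∑' γ : Γ, R.wC w wi (x, γ) * ‖F (x, γ)‖ₑ ∂μ := by
    simp_rw [hred]
    rw [lintegral_tsum hmi]
  refine ⟨?_, ?_⟩
  · rw [hsum, ← hl]
    simp_rw [ENNReal.tsum_mul_left]
    rfl
  · have i1 : Integrable (fun p : TwP τ X => (w p.1).toReal • F p) (TwP.meas τ μ) := by
      refine integrable_weight hW1 hFae ?_
      rw [hprod _ hW1.meas]; exact hl1
    have i2 : Integrable (fun p : TwP τ X => (R.wC w wi p).toReal • F p) (TwP.meas τ μ) := by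
      refine integrable_weight hW2 hFae ?_
      rw [hprod _ hW2.meas]; exact hl2
    rw [TwP.integral_meas τ i1, TwP.integral_meas τ i2] at hmain
    have e1 : ∫ x, ∑' γ : Γ, (w x).toReal • F (x, γ) ∂μ =
        ∫ x, (w x).toReal • ∑' γ : Γ, Φ γ x ∂μ := by
      refine integral_congr_ae (Filter.Eventually.of_forall fun x => ?_)
      beta_reduce
      rw [← tsum_const_smul'' (w x).toReal]
    rw [← e1]
    have hmain' : ∫ x, ∑' γ : Γ, (w x).toReal • F (x, γ) ∂μ =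
        ∫ x, ∑' i, (wi i x).toReal • Φ (R.r i) x ∂μ := by
      simp_rw [← hredE]
      exact hmain
    rw [hmain']
    have hen : ∀ i x, ‖(wi i x).toReal • Φ (R.r i) x‖ₑ = wi i x * ‖Φ (R.r i) x‖ₑ := fun i x => by
      rw [enorm_smul, Real.enorm_eq_ofReal ENNReal.toReal_nonneg,
        ENNReal.ofReal_toReal ((hwi i).ne_top x)]
    refine hasSum_integral_of_summable_integral_norm (fun i => ?_) ?_
    · refine integrable_weight (hwi i) (hΦ _) ?_
      refine ne_top_of_le_ne_top ?_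
        (ENNReal.le_tsum (f := fun i => ∫⁻ x, wi i x * ‖Φ (R.r i) x‖ₑ ∂μ) i)
      rw [hsum]; exact hl2
    · have hfin : ∑' i, ∫⁻ x, ‖(wi i x).toReal • Φ (R.r i) x‖ₑ ∂μ ≠ ∞ := by
        simp_rw [hen]
        rw [hsum]; exact hl2
      have := ENNReal.summable_toReal hfin
      refine this.congr fun i => ?_
      rw [integral_norm_eq_lintegral_enorm]
      exact ((hwi i).meas.ennreal_toReal.aestronglyMeasurable.smul (hΦ _))

end Reps

end Fermat.Agent.LT.F
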