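import Fermat.Agent.LT.F.Pairs

/-!
# LT/F: integration along a flow commuting with a group action

`φ` a measure preserving flow on `X` commuting with `Γ`, `u : X → ℝ` with `u (φ_s x) = u x + s`.
For functions `Ψ r x` invariant under `Γ` and `φ` in the variable `x`,
`∫ w Ψ(u x, x) = ∫ w 1_{0 ≤ u < 1} (∫ Ψ(r, x) dr)`.
-/

set_option linter.unusedSectionVars false

open MeasureTheory MulAction Set
open scoped ENNReal

namespace Fermat.Agent.LT.F

open Fermat.Agent.LT.B

/-- A measure preserving flow commuting with the action of `Γ`. -/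
structure Flow (Γ : Type*) {X : Type*} [Group Γ] [MulAction Γ X] [MeasurableSpace X]
    (μ : Measure X) where
  /-- the flow -/
  φ : ℝ → X → X
  meas : Measurable (fun p : ℝ × X => φ p.1 p.2)
  zero : ∀ x, φ 0 x = x
  add : ∀ s t x, φ (s + t) x = φ s (φ t x)
  mp : ∀ s, MeasurePreserving (φ s) μ μ
  comm : ∀ (a : Γ) s x, φ s (a • x) = a • φ s x

namespace Flow

variable {Γ X : Type*} [Group Γ] [MulAction Γ X] [MeasurableSpace X] {μ : Measure X}
  (f : Flow Γ μ)

/-- an equivariant height function for the flow -/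
structure IsHt (u : X → ℝ) : Prop where
  meas : Measurable u
  inv : ∀ (a : Γ) x, u (a • x) = u x
  flow : ∀ s x, u (f.φ s x) = u x + s

variable {f}

theorem measurable_φ (s : ℝ) : Measurable (f.φ s) := f.meas.comp (measurable_const.prodMk measurable_id)

theorem neg_add (s : ℝ) (x : X) : f.φ (-s) (f.φ s x) = x := by
  rw [← f.add, neg_add_cancel, f.zero]

theorem add_neg (s : ℝ) (x : X) : f.φ s (f.φ (-s) x) = x := by
  rw [← f.add, add_neg_cancel, f.zero]

theorem isWeight_comp {w : X → ℝ≥0∞} (hw : IsWeight Γ w) (s : ℝ) :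
    IsWeight Γ (fun x => w (f.φ s x)) :=
  IsWeight.comp hw (measurable_φ s) (fun a x => f.comm a s x)

/-- `∫⁻ 1_{0 ≤ c - r < 1} dr = 1`. -/
theorem lintegral_slab (c : ℝ) :
    ∫⁻ r : ℝ, (if 0 ≤ c - r ∧ c - r < 1 then (1 : ℝ≥0∞) else 0) = 1 := by
  have : (fun r : ℝ => (if 0 ≤ c - r ∧ c - r < 1 then (1 : ℝ≥0∞) else 0)) =
      (Set.Ioc (c - 1) c).indicator 1 := by
    ext r
    by_cases h : 0 ≤ c - r ∧ c - r < 1
    · rw [if_pos h, indicator_of_mem]
      · rfl
      · constructor <;> linarith [h.1, h.2]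
    · rw [if_neg h, indicator_of_notMem]
      intro h'
      exact h ⟨by linarith [h'.2], by linarith [h'.1]⟩
  rw [this, lintegral_indicator_one measurableSet_Ioc, Real.volume_Ioc]
  norm_num

variable [Countable Γ] [MeasurableConstSMul Γ X] [SMulInvariantMeasure Γ X μ] [SFinite μ]

/-- **Integration along the flow**, nonnegative version. -/
theorem lintegral_flow {w : X → ℝ≥0∞} (hw : IsWeight Γ w) {u : X → ℝ} (hu : f.IsHt u)
    {Ψ : ℝ → X → ℝ≥0∞} (hΨ : Measurable (fun p : ℝ × X => Ψ p.1 p.2))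
    (hΓ : ∀ (a : Γ) r x, Ψ r (a • x) = Ψ r x) (hφ : ∀ s r x, Ψ r (f.φ s x) = Ψ r x) :
    ∫⁻ x, w x * Ψ (u x) x ∂μ =
      ∫⁻ x, w x * ((if 0 ≤ u x ∧ u x < 1 then 1 else 0) * ∫⁻ r, Ψ r x) ∂μ := by
  have hum := hu.meas
  have hslab : Measurable (fun c : ℝ => (if 0 ≤ c ∧ c < 1 then (1 : ℝ≥0∞) else 0)) := by
    have : (fun c : ℝ => (if 0 ≤ c ∧ c < 1 then (1 : ℝ≥0∞) else 0)) =
        (Set.Ico (0 : ℝ) 1).indicator 1 := by
      ext c; simp [Set.indicator_apply, Set.mem_Ico]
    rw [this]
    exact measurable_one.indicator measurableSet_Ico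
  symm
  calc ∫⁻ x, w x * ((if 0 ≤ u x ∧ u x < 1 then 1 else 0) * ∫⁻ r, Ψ r x) ∂μ
      = ∫⁻ x, ∫⁻ r, w x * ((if 0 ≤ u x ∧ u x < 1 then 1 else 0) * Ψ (u x + r) x) ∂volume ∂μ := by
        refine lintegral_congr fun x => ?_
        have h1 : Measurable (fun r => Ψ r x) := hΨ.comp (measurable_id.prodMk measurable_const)
        rw [← lintegral_add_left_eq_self (fun r => Ψ r x) (u x)]
        rw [lintegral_const_mul' _ _ (hw.ne_top x), lintegral_const_mul']
        split_ifs <;> simp
    _ = ∫⁻ r, ∫⁻ x, w x * ((if 0 ≤ u x ∧ u x < 1 then 1 else 0) * Ψ (u x + r) x) ∂μ ∂volume := by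
        rw [lintegral_lintegral_swap]
        refine Measurable.aemeasurable ?_
        refine (hw.meas.comp measurable_fst).mul ((hslab.comp (hum.comp measurable_fst)).mul ?_)
        exact hΨ.comp (((hum.comp measurable_fst).add measurable_snd).prodMk measurable_fst)
    _ = ∫⁻ r, ∫⁻ x, w x * ((if 0 ≤ u x - r ∧ u x - r < 1 then 1 else 0) * Ψ (u x) x)
          ∂μ ∂volume := by
        refine lintegral_congr fun r => ?_
        -- substitute x = φ_{-r} x
        set g : X → ℝ≥0∞ := fun x =>
          w x * ((if 0 ≤ u x ∧ u x < 1 then 1 else 0) * Ψ (u x + r) x) with hg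
        have hgm : Measurable g := by
          refine hw.meas.mul ((hslab.comp hum).mul ?_)
          exact hΨ.comp ((hum.add_const r).prodMk measurable_id)
        have h1 : ∫⁻ x, g x ∂μ = ∫⁻ x, g (f.φ (-r) x) ∂μ := by
          rw [← (f.mp (-r)).lintegral_comp hgm]
        have h2 : ∀ x, g (f.φ (-r) x) = w (f.φ (-r) x) *
            ((if 0 ≤ u x - r ∧ u x - r < 1 then 1 else 0) * Ψ (u x) x) := by
          intro x
          simp only [hg]
          rw [hu.flow, hφ]
          have e1 : u x + -r + r = u x := by ring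
          have e2 : u x + -r = u x - r := by ring
          rw [e1, e2]
        rw [h1]
        simp_rw [h2]
        refine (isWeight_comp hw (-r)).lintegral_eq hw ?_ ?_
        · refine Measurable.aemeasurable ?_
          refine (hslab.comp (hum.sub_const r)).mul ?_
          exact hΨ.comp (hum.prodMk measurable_id)
        · intro a x
          rw [hu.inv, hΓ]
    _ = ∫⁻ x, ∫⁻ r, w x * ((if 0 ≤ u x - r ∧ u x - r < 1 then 1 else 0) * Ψ (u x) x)
          ∂volume ∂μ := by
        rw [lintegral_lintegral_swap]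
        refine Measurable.aemeasurable ?_
        refine (hw.meas.comp measurable_snd).mul ?_
        refine (hslab.comp ((hum.comp measurable_snd).sub measurable_fst)).mul ?_
        exact hΨ.comp ((hum.comp measurable_snd).prodMk measurable_snd)
    _ = ∫⁻ x, w x * Ψ (u x) x ∂μ := by
        refine lintegral_congr fun x => ?_
        rw [lintegral_const_mul' _ _ (hw.ne_top x), lintegral_mul_const _ (by
          exact hslab.comp (measurable_const.sub measurable_id)), lintegral_slab, one_mul]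

/-! ### Bochner version, via the quotient of `ℝ × X` -/

/-- the equivalence relation on `ℝ × X` generated by `Γ` and the flow on the second factor. -/
def rel (f : Flow Γ μ) : Setoid (ℝ × X) where
  r p q := p.1 = q.1 ∧ ∃ (a : Γ) (s : ℝ), q.2 = a • f.φ s p.2
  iseqv :=
    { refl := fun p => ⟨rfl, 1, 0, by rw [f.zero, one_smul]⟩
      symm := by
        rintro p q ⟨h, a, s, hq⟩
        refine ⟨h.symm, a⁻¹, -s, ?_⟩
        rw [hq, f.comm, inv_smul_smul, neg_add]
      trans := by
        rintro p q r ⟨h, a, s, hq⟩ ⟨h', b, t, hr⟩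
        refine ⟨h.trans h', b * a, t + s, ?_⟩
        rw [hr, hq, f.comm, mul_smul, f.add] }

/-- the quotient -/
def Rq (f : Flow Γ μ) : Type _ := Quotient f.rel

instance (f : Flow Γ μ) : MeasurableSpace (Rq f) := inferInstanceAs (MeasurableSpace (Quotient f.rel))

/-- projection to the quotient -/
def qmk (f : Flow Γ μ) (p : ℝ × X) : Rq f := Quotient.mk f.rel p

omit [Countable Γ] [MeasurableConstSMul Γ X] [SMulInvariantMeasure Γ X μ] [SFinite μ] in
theorem measurable_qmk : Measurable (qmk f) := measurable_quotient_mk''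

/-- descent of an invariant function -/
def lift {β : Type*} (F : ℝ × X → β) (hF : ∀ r (a : Γ) s x, F (r, a • f.φ s x) = F (r, x)) :
    Rq f → β :=
  Quotient.lift F (by
    rintro ⟨r, x⟩ ⟨r', x'⟩ ⟨h, a, s, hx⟩
    simp only at h hx
    subst h
    rw [hx, hF])

omit [Countable Γ] [MeasurableConstSMul Γ X] [SMulInvariantMeasure Γ X μ] [SFinite μ] in
theorem lift_qmk {β : Type*} (F : ℝ × X → β)
    (hF : ∀ r (a : Γ) s x, F (r, a • f.φ s x) = F (r, x)) (p : ℝ × X) :
    lift F hF (qmk f p) = F p := rfl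

omit [Countable Γ] [MeasurableConstSMul Γ X] [SMulInvariantMeasure Γ X μ] [SFinite μ] in
theorem measurable_lift {β : Type*} [MeasurableSpace β] {F : ℝ × X → β} (hm : Measurable F)
    (hF : ∀ r (a : Γ) s x, F (r, a • f.φ s x) = F (r, x)) : Measurable (lift F hF) :=
  measurable_from_quotient.mpr hm

omit [Countable Γ] [MeasurableConstSMul Γ X] [SMulInvariantMeasure Γ X μ] [SFinite μ] in
theorem qmk_smul_flow (r : ℝ) (a : Γ) (s : ℝ) (x : X) : qmk f (r, a • f.φ s x) = qmk f (r, x) := by
  have h : f.rel (r, x) (r, a • f.φ s x) := ⟨rfl, a, s, rfl⟩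
  exact (Quotient.sound (s := f.rel) h).symm

/-- first measure on the quotient -/
noncomputable def m1 (f : Flow Γ μ) (w : X → ℝ≥0∞) (u : X → ℝ) : Measure (Rq f) :=
  (μ.withDensity w).map (fun x => qmk f (u x, x))

/-- weight times slab indicator -/
noncomputable def wslab (w : X → ℝ≥0∞) (u : X → ℝ) (x : X) : ℝ≥0∞ :=
  w x * (if 0 ≤ u x ∧ u x < 1 then 1 else 0)

/-- second measure on the quotient -/
noncomputable def m2 (f : Flow Γ μ) (w : X → ℝ≥0∞) (u : X → ℝ) : Measure (Rq f) :=
  ((volume : Measure ℝ).prod (μ.withDensity (wslab w u))).map (qmk f)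

omit [Countable Γ] [MeasurableConstSMul Γ X] [SMulInvariantMeasure Γ X μ] [SFinite μ] in
theorem measurable_wslab {w : X → ℝ≥0∞} (hw : Measurable w) {u : X → ℝ} (hu : Measurable u) :
    Measurable (wslab w u) := by
  unfold wslab
  refine hw.mul ?_
  exact Measurable.ite ((measurableSet_le measurable_const hu).inter
    (measurableSet_lt hu measurable_const)) measurable_const measurable_const

theorem m1_eq_m2 {w : X → ℝ≥0∞} (hw : IsWeight Γ w) {u : X → ℝ} (hu : f.IsHt u) :
    m1 f w u = m2 f w u := by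
  refine Measure.ext_of_lintegral _ fun F hF => ?_
  have hmx : Measurable (fun x => qmk f (u x, x)) := measurable_qmk.comp (hu.meas.prodMk measurable_id)
  have hFm : Measurable (fun p : ℝ × X => F (qmk f p)) := hF.comp measurable_qmk
  unfold m1 m2
  rw [lintegral_map hF hmx, lintegral_map hF measurable_qmk,
    lintegral_withDensity_eq_lintegral_mul _ hw.meas (show Measurable fun x => F (qmk f (u x, x))
      from hF.comp hmx), lintegral_prod_symm _
      hFm.aemeasurable, lintegral_withDensity_eq_lintegral_mul _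
      (measurable_wslab hw.meas hu.meas) hFm.lintegral_prod_left']
  have := lintegral_flow hw hu (Ψ := fun r x => F (qmk f (r, x))) hFm
    (fun a r x => by
      have := qmk_smul_flow (f := f) r a 0 x
      rw [f.zero] at this
      rw [this])
    (fun s r x => by
      have := qmk_smul_flow (f := f) r (1 : Γ) s x
      rw [one_smul] at this
      rw [this])
  simp only [Pi.mul_apply]
  rw [this]
  refine lintegral_congr fun x => ?_
  rw [wslab, mul_assoc]

variable {E : Type*} [NormedAddCommGroup E] [NormedSpace ℝ E] [CompleteSpace E]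
  [SecondCountableTopology E] [MeasurableSpace E] [BorelSpace E]

/-- **Integration along the flow**, Bochner version. -/
theorem integral_flow {w : X → ℝ≥0∞} (hw : IsWeight Γ w) {u : X → ℝ} (hu : f.IsHt u)
    {Ψ : ℝ → X → E} (hΨ : Measurable (fun p : ℝ × X => Ψ p.1 p.2))
    (hΓ : ∀ (a : Γ) r x, Ψ r (a • x) = Ψ r x) (hφ : ∀ s r x, Ψ r (f.φ s x) = Ψ r x)
    (hint : ∫⁻ x, w x * ‖Ψ (u x) x‖ₑ ∂μ ≠ ∞) :
    ∫ x, (w x).toReal • Ψ (u x) x ∂μ =
      ∫ x, (w x).toReal • ((if 0 ≤ u x ∧ u x < 1 then (1 : ℝ) else 0) • ∫ r, Ψ r x) ∂μ := by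
  have hinv : ∀ r (a : Γ) s x, Ψ r (a • f.φ s x) = Ψ r x := fun r a s x => by rw [hΓ, hφ]
  set F : Rq f → E := lift (fun p : ℝ × X => Ψ p.1 p.2) hinv with hF
  have hFm : Measurable F := measurable_lift hΨ hinv
  have hmx : Measurable (fun x => qmk f (u x, x)) := measurable_qmk.comp (hu.meas.prodMk measurable_id)
  have hws := measurable_wslab hw.meas hu.meas
  have hwst : ∀ x, wslab w u x < ∞ := fun x => by
    unfold wslab
    split_ifs
    · rw [mul_one]; exact (hw.ne_top x).lt_top
    · simp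
  have e1 : ∫ q, F q ∂(m1 f w u) = ∫ x, (w x).toReal • Ψ (u x) x ∂μ := by
    unfold m1
    rw [integral_map hmx.aemeasurable hFm.aestronglyMeasurable,
      integral_withDensity_eq_integral_toReal_smul hw.meas
        (Filter.Eventually.of_forall fun x => (hw.ne_top x).lt_top)]
    rfl
  have hint2 : Integrable (fun p : ℝ × X => Ψ p.1 p.2)
      ((volume : Measure ℝ).prod (μ.withDensity (wslab w u))) := by
    have h1 : Integrable F (m1 f w u) := by
      unfold m1
      rw [integrable_map_measure hFm.aestronglyMeasurable hmx.aemeasurable]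
      refine ⟨(hFm.comp hmx).aestronglyMeasurable, ?_⟩
      unfold HasFiniteIntegral
      rw [lintegral_withDensity_eq_lintegral_mul _ hw.meas (hFm.comp hmx).enorm]
      exact hint.lt_top
    rw [m1_eq_m2 hw hu] at h1
    unfold m2 at h1
    rw [integrable_map_measure hFm.aestronglyMeasurable measurable_qmk.aemeasurable] at h1
    exact h1
  have e2 : ∫ q, F q ∂(m2 f w u) = ∫ x, (w x).toReal •
      ((if 0 ≤ u x ∧ u x < 1 then (1 : ℝ) else 0) • ∫ r, Ψ r x) ∂μ := by
    unfold m2
    rw [integral_map measurable_qmk.aemeasurable hFm.aestronglyMeasurable]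
    have : ∫ p, F (qmk f p) ∂((volume : Measure ℝ).prod (μ.withDensity (wslab w u))) =
        ∫ p : ℝ × X, Ψ p.1 p.2 ∂((volume : Measure ℝ).prod (μ.withDensity (wslab w u))) := rfl
    rw [this, integral_prod_symm _ hint2, integral_withDensity_eq_integral_toReal_smul hws
      (Filter.Eventually.of_forall hwst)]
    refine integral_congr_ae (Filter.Eventually.of_forall fun x => ?_)
    beta_reduce
    rw [smul_smul]
    congr 1
    unfold wslab
    split_ifs <;> simp
  rw [← e1, ← e2, m1_eq_m2 hw hu]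

/-! ### consequences -/

omit [Countable Γ] [MeasurableConstSMul Γ X] [SMulInvariantMeasure Γ X μ] [SFinite μ] in
theorem measurableSet_slab {u : X → ℝ} (hu : Measurable u) :
    MeasurableSet {x | 0 ≤ u x ∧ u x < 1} :=
  (measurableSet_le measurable_const hu).inter (measurableSet_lt hu measurable_const)

/-- the length of `{r | r ≤ t, ω - r ≤ t}` -/
theorem integral_strip {t ω : ℝ} (h : ω ≤ 2 * t) (κ : E) :
    ∫ r : ℝ, (if r ≤ t ∧ ω - r ≤ t then κ else 0) = (2 * t - ω) • κ := by
  have : (fun r : ℝ => (if r ≤ t ∧ ω - r ≤ t then κ else 0)) =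
      (Set.Icc (ω - t) t).indicator (fun _ => κ) := by
    ext r
    by_cases h : r ≤ t ∧ ω - r ≤ t
    · rw [if_pos h, indicator_of_mem]
      constructor <;> linarith [h.1, h.2]
    · rw [if_neg h, indicator_of_notMem]
      intro h'
      exact h ⟨h'.2, by linarith [h'.1]⟩
  rw [this, integral_indicator measurableSet_Icc, setIntegral_const]
  congr 1
  simp only [Measure.real, Real.volume_Icc]
  rw [ENNReal.toReal_ofReal (by linarith)]
  ring

theorem lintegral_strip {t ω : ℝ} (c : ℝ≥0∞) :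
    ∫⁻ r : ℝ, (if r ≤ t ∧ ω - r ≤ t then c else 0) = ENNReal.ofReal (2 * t - ω) * c := by
  have : (fun r : ℝ => (if r ≤ t ∧ ω - r ≤ t then c else 0)) =
      (Set.Icc (ω - t) t).indicator (fun _ => c) := by
    ext r
    by_cases h : r ≤ t ∧ ω - r ≤ t
    · rw [if_pos h, indicator_of_mem]
      constructor <;> linarith [h.1, h.2]
    · rw [if_neg h, indicator_of_notMem]
      intro h'
      exact h ⟨h'.2, by linarith [h'.1]⟩
  rw [this, lintegral_indicator measurableSet_Icc, setLIntegral_const, Real.volume_Icc, mul_comm]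
  congr 2
  ring

/-- a second height, decreasing along the flow -/
structure IsHt' (f : Flow Γ μ) (v : X → ℝ) : Prop where
  meas : Measurable v
  inv : ∀ (a : Γ) x, v (a • x) = v x
  flow : ∀ s x, v (f.φ s x) = v x - s

/-- the slab integral `∫_{(Γ × ℝ) \ X} F`. -/
noncomputable def slabInt (w : X → ℝ≥0∞) (u : X → ℝ) (μ : Measure X) (F : X → E) : E :=
  ∫ x, (w x).toReal • ((if 0 ≤ u x ∧ u x < 1 then (1 : ℝ) else 0) • F x) ∂μ

/-- absolute version of `slabInt` -/
noncomputable def slabL (w : X → ℝ≥0∞) (u : X → ℝ) (μ : Measure X) (F : X → ℝ≥0∞) : ℝ≥0∞ :=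
  ∫⁻ x, w x * ((if 0 ≤ u x ∧ u x < 1 then 1 else 0) * F x) ∂μ

omit [Countable Γ] [MeasurableConstSMul Γ X] [SMulInvariantMeasure Γ X μ] [SFinite μ] in
theorem integrable_slab {w : X → ℝ≥0∞} (hw : IsWeight Γ w) {u : X → ℝ} (hu : Measurable u)
    {F : X → E} (hF : AEStronglyMeasurable F μ) (h : slabL w u μ (fun x => ‖F x‖ₑ) ≠ ∞) :
    Integrable (fun x => (w x).toReal • ((if 0 ≤ u x ∧ u x < 1 then (1 : ℝ) else 0) • F x)) μ := by
  have hm : Measurable (fun x => (if 0 ≤ u x ∧ u x < 1 then (1 : ℝ) else 0)) :=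
    Measurable.ite (measurableSet_slab hu) measurable_const measurable_const
  refine ⟨hw.meas.ennreal_toReal.aestronglyMeasurable.smul (hm.aestronglyMeasurable.smul hF), ?_⟩
  unfold HasFiniteIntegral
  refine lt_of_le_of_lt (le_of_eq ?_) h.lt_top
  unfold slabL
  refine lintegral_congr fun x => ?_
  rw [enorm_smul, Real.enorm_eq_ofReal ENNReal.toReal_nonneg, ENNReal.ofReal_toReal (hw.ne_top x),
    enorm_smul]
  split_ifs <;> simp

/-- **Truncated integral along the flow**, nonnegative version. -/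
theorem lintegral_trunc {w : X → ℝ≥0∞} (hw : IsWeight Γ w) {u v : X → ℝ} (hu : f.IsHt u)
    (hv : IsHt' f v) {K : X → ℝ≥0∞} (hK : Measurable K)
    (hΓ : ∀ (a : Γ) x, K (a • x) = K x) (hφ : ∀ s x, K (f.φ s x) = K x) (t : ℝ) :
    ∫⁻ x, w x * (if u x ≤ t ∧ v x ≤ t then K x else 0) ∂μ =
      ∫⁻ x, w x * ((if 0 ≤ u x ∧ u x < 1 then 1 else 0) *
        (ENNReal.ofReal (2 * t - (u x + v x)) * K x)) ∂μ := by
  have hωinv : ∀ (a : Γ) x, u (a • x) + v (a • x) = u x + v x := fun a x => by rw [hu.inv, hv.inv]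
  have hωflow : ∀ s x, u (f.φ s x) + v (f.φ s x) = u x + v x := fun s x => by
    rw [hu.flow, hv.flow]; ring
  have hum := hu.meas
  have hvm := hv.meas
  have hset : MeasurableSet {p : ℝ × X | p.1 ≤ t ∧ u p.2 + v p.2 - p.1 ≤ t} :=
    (measurableSet_le measurable_fst measurable_const).inter
      (measurableSet_le (((hum.comp measurable_snd).add (hvm.comp measurable_snd)).sub
        measurable_fst) measurable_const)
  set Ψ : ℝ → X → ℝ≥0∞ := fun r x => if r ≤ t ∧ u x + v x - r ≤ t then K x else 0 with hΨ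
  have hΨm : Measurable (fun p : ℝ × X => Ψ p.1 p.2) :=
    Measurable.ite hset (hK.comp measurable_snd) measurable_const
  have hL := lintegral_flow hw hu (Ψ := Ψ) hΨm
    (fun a r x => by simp only [hΨ, hωinv, hΓ]) (fun s r x => by simp only [hΨ, hωflow, hφ])
  have hΨu : ∀ x, Ψ (u x) x = if u x ≤ t ∧ v x ≤ t then K x else 0 := by
    intro x
    simp only [hΨ]
    have : u x + v x - u x = v x := by ring
    rw [this]
  simp_rw [hΨu] at hL
  rw [hL]
  refine lintegral_congr fun x => ?_
  rw [← lintegral_strip]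

/-- **Finiteness** of the slab integrals from finiteness of a truncated integral. -/
theorem slabL_ne_top {w : X → ℝ≥0∞} (hw : IsWeight Γ w) {u v : X → ℝ} (hu : f.IsHt u)
    (hv : IsHt' f v) (hω : ∀ x, u x + v x ≤ 0) {K : X → ℝ≥0∞} (hK : Measurable K)
    (hΓ : ∀ (a : Γ) x, K (a • x) = K x) (hφ : ∀ s x, K (f.φ s x) = K x) {t : ℝ} (ht : 0 < t)
    (hint : ∫⁻ x, w x * (if u x ≤ t ∧ v x ≤ t then K x else 0) ∂μ ≠ ∞) :
    slabL w u μ K ≠ ∞ ∧ slabL w u μ (fun x => ‖u x + v x‖ₑ * K x) ≠ ∞ := by
  rw [lintegral_trunc hw hu hv hK hΓ hφ] at hint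
  constructor
  · have h1 : slabL w u μ (fun x => ENNReal.ofReal (2 * t) * K x) ≠ ∞ := by
      refine ne_top_of_le_ne_top hint (lintegral_mono fun x => ?_)
      gcongr
      beta_reduce
      gcongr
      linarith [hω x]
    have h2 : slabL w u μ (fun x => ENNReal.ofReal (2 * t) * K x) =
        ENNReal.ofReal (2 * t) * slabL w u μ K := by
      unfold slabL
      rw [← lintegral_const_mul' _ _ ENNReal.ofReal_ne_top]
      refine lintegral_congr fun x => ?_
      ring
    rw [h2] at h1
    intro h3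
    rw [h3, ENNReal.mul_top (by simpa using ht)] at h1
    exact h1 rfl
  · refine ne_top_of_le_ne_top hint (lintegral_mono fun x => ?_)
    gcongr
    beta_reduce
    gcongr
    rw [Real.enorm_eq_ofReal_abs]
    apply ENNReal.ofReal_le_ofReal
    rw [abs_of_nonpos (hω x)]
    linarith

/-- **Truncated integral along the flow.** -/
theorem flow_trunc {w : X → ℝ≥0∞} (hw : IsWeight Γ w) {u v : X → ℝ} (hu : f.IsHt u)
    (hv : IsHt' f v) (hω : ∀ x, u x + v x ≤ 0) {κ : X → E} (hκ : Measurable κ)
    (hΓ : ∀ (a : Γ) x, κ (a • x) = κ x) (hφ : ∀ s x, κ (f.φ s x) = κ x) {t : ℝ} (ht : 0 < t)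
    (hint : ∫⁻ x, w x * (if u x ≤ t ∧ v x ≤ t then ‖κ x‖ₑ else 0) ∂μ ≠ ∞) :
    slabL w u μ (fun x => ‖κ x‖ₑ) ≠ ∞ ∧
    slabL w u μ (fun x => ‖(u x + v x) • κ x‖ₑ) ≠ ∞ ∧
    ∫ x, (w x).toReal • (if u x ≤ t ∧ v x ≤ t then κ x else 0) ∂μ =
      (2 * t) • slabInt w u μ κ - slabInt w u μ (fun x => (u x + v x) • κ x) := by
  have hωinv : ∀ (a : Γ) x, u (a • x) + v (a • x) = u x + v x := fun a x => by rw [hu.inv, hv.inv]
  have hωflow : ∀ s x, u (f.φ s x) + v (f.φ s x) = u x + v x := fun s x => by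
    rw [hu.flow, hv.flow]; ring
  have hum := hu.meas
  have hvm := hv.meas
  have hset : MeasurableSet {p : ℝ × X | p.1 ≤ t ∧ u p.2 + v p.2 - p.1 ≤ t} :=
    (measurableSet_le measurable_fst measurable_const).inter
      (measurableSet_le (((hum.comp measurable_snd).add (hvm.comp measurable_snd)).sub
        measurable_fst) measurable_const)
  -- the function Ψ
  set Ψ : ℝ → X → E := fun r x => if r ≤ t ∧ u x + v x - r ≤ t then κ x else 0 with hΨ
  have hΨm : Measurable (fun p : ℝ × X => Ψ p.1 p.2) :=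
    Measurable.ite hset (hκ.comp measurable_snd) measurable_const
  have hΨΓ : ∀ (a : Γ) r x, Ψ r (a • x) = Ψ r x := fun a r x => by
    simp only [hΨ, hωinv, hΓ]
  have hΨφ : ∀ s r x, Ψ r (f.φ s x) = Ψ r x := fun s r x => by
    simp only [hΨ, hωflow, hφ]
  have hΨu : ∀ x, Ψ (u x) x = if u x ≤ t ∧ v x ≤ t then κ x else 0 := by
    intro x
    simp only [hΨ]
    have : u x + v x - u x = v x := by ring
    rw [this]
  have hn : ∀ x, ‖Ψ (u x) x‖ₑ = if u x ≤ t ∧ v x ≤ t then ‖κ x‖ₑ else 0 := by
    intro x; rw [hΨu]; split_ifs <;> simp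
  have hint' : ∫⁻ x, w x * ‖Ψ (u x) x‖ₑ ∂μ ≠ ∞ := by simpa only [hn] using hint
  -- nonnegative version
  have hL := lintegral_flow hw hu (Ψ := fun r x => ‖Ψ r x‖ₑ) hΨm.enorm
    (fun a r x => by rw [hΨΓ]) (fun s r x => by rw [hΨφ])
  have hin : ∀ x, ∫⁻ r, ‖Ψ r x‖ₑ = ENNReal.ofReal (2 * t - (u x + v x)) * ‖κ x‖ₑ := by
    intro x
    rw [← lintegral_strip]
    refine lintegral_congr fun r => ?_
    simp only [hΨ]
    split_ifs <;> simp
  simp_rw [hin] at hL
  rw [hL] at hint'
  have hc1 : slabL w u μ (fun x => ‖κ x‖ₑ) ≠ ∞ := by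
    have h1 : slabL w u μ (fun x => ENNReal.ofReal (2 * t) * ‖κ x‖ₑ) ≠ ∞ := by
      refine ne_top_of_le_ne_top hint' (lintegral_mono fun x => ?_)
      gcongr
      beta_reduce
      gcongr
      linarith [hω x]
    have h2 : slabL w u μ (fun x => ENNReal.ofReal (2 * t) * ‖κ x‖ₑ) =
        ENNReal.ofReal (2 * t) * slabL w u μ (fun x => ‖κ x‖ₑ) := by
      unfold slabL
      rw [← lintegral_const_mul' _ _ ENNReal.ofReal_ne_top]
      refine lintegral_congr fun x => ?_
      ring
    rw [h2] at h1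
    intro h3
    rw [h3, ENNReal.mul_top (by simpa using ht)] at h1
    exact h1 rfl
  have hc2 : slabL w u μ (fun x => ‖(u x + v x) • κ x‖ₑ) ≠ ∞ := by
    refine ne_top_of_le_ne_top hint' (lintegral_mono fun x => ?_)
    gcongr
    beta_reduce
    rw [enorm_smul]
    gcongr
    rw [Real.enorm_eq_ofReal_abs]
    apply ENNReal.ofReal_le_ofReal
    rw [abs_of_nonpos (hω x)]
    linarith
  refine ⟨hc1, hc2, ?_⟩
  have hB := integral_flow hw hu hΨm hΨΓ hΨφ (by simpa only [hn] using hint)
  simp_rw [hΨu] at hB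
  rw [hB]
  have hin2 : ∀ x, ∫ r, Ψ r x = (2 * t) • κ x - (u x + v x) • κ x := by
    intro x
    have := integral_strip (t := t) (ω := u x + v x) (by linarith [hω x]) (κ x)
    rw [sub_smul] at this
    exact this
  simp_rw [hin2]
  unfold slabInt
  rw [← integral_smul, ← integral_sub]
  · refine integral_congr_ae (Filter.Eventually.of_forall fun x => ?_)
    beta_reduce
    rw [smul_sub, smul_sub, smul_comm (2 * t) (w x).toReal, smul_comm (2 * t)]
  · exact (integrable_slab hw hum hκ.aestronglyMeasurable hc1).smul (2 * t)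
  · exact integrable_slab hw hum ((hum.add hvm).smul hκ).aestronglyMeasurable hc2

/-- **Independence of the slab**, nonnegative version. -/
theorem slabL_eq {w w' : X → ℝ≥0∞} (hw : IsWeight Γ w) (hw' : IsWeight Γ w') {u u' : X → ℝ}
    (hu : f.IsHt u) (hu' : f.IsHt u') {F : X → ℝ≥0∞} (hF : Measurable F)
    (hΓ : ∀ (a : Γ) x, F (a • x) = F x) (hφ : ∀ s x, F (f.φ s x) = F x) :
    slabL w u μ F = slabL w' u' μ F := by
  have hum := hu.meas
  have hum' := hu'.meas
  -- first change the slab, then the weight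
  have hset : MeasurableSet {p : ℝ × X | 0 ≤ p.1 + (u p.2 - u' p.2) ∧ p.1 + (u p.2 - u' p.2) < 1} := by
    have hm : Measurable (fun p : ℝ × X => p.1 + (u p.2 - u' p.2)) :=
      measurable_fst.add ((hum.comp measurable_snd).sub (hum'.comp measurable_snd))
    exact (measurableSet_le measurable_const hm).inter (measurableSet_lt hm measurable_const)
  have h1 := lintegral_flow hw hu' (Ψ := fun r x =>
      if 0 ≤ r + (u x - u' x) ∧ r + (u x - u' x) < 1 then F x else 0)
    (Measurable.ite hset (hF.comp measurable_snd) measurable_const)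
    (fun a r x => by simp only [hu.inv, hu'.inv, hΓ])
    (fun s r x => by
      have e : u (f.φ s x) - u' (f.φ s x) = u x - u' x := by rw [hu.flow, hu'.flow]; ring
      simp only [e, hφ])
  have h2 : ∀ x, ∫⁻ r : ℝ, (if 0 ≤ r + (u x - u' x) ∧ r + (u x - u' x) < 1 then F x else 0) =
      F x := by
    intro x
    have : (fun r : ℝ => (if 0 ≤ r + (u x - u' x) ∧ r + (u x - u' x) < 1 then F x else 0)) =
      (Set.Ico (-(u x - u' x)) (1 - (u x - u' x))).indicator (fun _ => F x) := by
      ext r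
      by_cases h : 0 ≤ r + (u x - u' x) ∧ r + (u x - u' x) < 1
      · rw [if_pos h, indicator_of_mem]
        constructor <;> linarith [h.1, h.2]
      · rw [if_neg h, indicator_of_notMem]
        intro h'
        exact h ⟨by linarith [h'.1], by linarith [h'.2]⟩
    rw [this, lintegral_indicator measurableSet_Ico, setLIntegral_const, Real.volume_Ico]
    have e : 1 - (u x - u' x) - -(u x - u' x) = 1 := by ring
    rw [e, ENNReal.ofReal_one, mul_one]
  simp_rw [h2] at h1
  have h3 : slabL w u μ F = slabL w u' μ F := by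
    unfold slabL
    rw [← h1]
    refine lintegral_congr fun x => ?_
    have e : u' x + (u x - u' x) = u x := by ring
    rw [e]
    split_ifs <;> simp
  rw [h3]
  unfold slabL
  refine hw.lintegral_eq hw' ?_ (fun a x => by rw [hu'.inv, hΓ])
  exact ((Measurable.ite (measurableSet_slab hum') measurable_const measurable_const).mul
    hF).aemeasurable

/-- **Independence of the slab and the weight.** -/
theorem slabInt_eq {w w' : X → ℝ≥0∞} (hw : IsWeight Γ w) (hw' : IsWeight Γ w') {u u' : X → ℝ}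
    (hu : f.IsHt u) (hu' : f.IsHt u') {F : X → E} (hF : Measurable F)
    (hΓ : ∀ (a : Γ) x, F (a • x) = F x) (hφ : ∀ s x, F (f.φ s x) = F x)
    (hint : slabL w u μ (fun x => ‖F x‖ₑ) ≠ ∞) :
    slabInt w u μ F = slabInt w' u' μ F := by
  have hum := hu.meas
  have hum' := hu'.meas
  have hset : MeasurableSet {p : ℝ × X | 0 ≤ p.1 + (u p.2 - u' p.2) ∧ p.1 + (u p.2 - u' p.2) < 1} := by
    have hm : Measurable (fun p : ℝ × X => p.1 + (u p.2 - u' p.2)) :=
      measurable_fst.add ((hum.comp measurable_snd).sub (hum'.comp measurable_snd))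
    exact (measurableSet_le measurable_const hm).inter (measurableSet_lt hm measurable_const)
  have hΨu : ∀ x, (if 0 ≤ u' x + (u x - u' x) ∧ u' x + (u x - u' x) < 1 then F x else 0) =
      (if 0 ≤ u x ∧ u x < 1 then (1 : ℝ) else 0) • F x := by
    intro x
    have e : u' x + (u x - u' x) = u x := by ring
    rw [e]
    split_ifs <;> simp
  have h1 := integral_flow hw hu' (Ψ := fun r x =>
      if 0 ≤ r + (u x - u' x) ∧ r + (u x - u' x) < 1 then F x else 0)
    (Measurable.ite hset (hF.comp measurable_snd) measurable_const)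
    (fun a r x => by simp only [hu.inv, hu'.inv, hΓ])
    (fun s r x => by
      have e : u (f.φ s x) - u' (f.φ s x) = u x - u' x := by rw [hu.flow, hu'.flow]; ring
      simp only [e, hφ])
    (by
      simp_rw [hΨu]
      refine ne_top_of_le_ne_top hint (lintegral_mono fun x => ?_)
      gcongr
      rw [enorm_smul]
      split_ifs <;> simp)
  have h2 : ∀ x, ∫ r : ℝ, (if 0 ≤ r + (u x - u' x) ∧ r + (u x - u' x) < 1 then F x else 0) =
      F x := by
    intro x
    have : (fun r : ℝ => (if 0 ≤ r + (u x - u' x) ∧ r + (u x - u' x) < 1 then F x else 0)) =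
      (Set.Ico (-(u x - u' x)) (1 - (u x - u' x))).indicator (fun _ => F x) := by
      ext r
      by_cases h : 0 ≤ r + (u x - u' x) ∧ r + (u x - u' x) < 1
      · rw [if_pos h, indicator_of_mem]
        constructor <;> linarith [h.1, h.2]
      · rw [if_neg h, indicator_of_notMem]
        intro h'
        exact h ⟨by linarith [h'.1], by linarith [h'.2]⟩
    rw [this, integral_indicator measurableSet_Ico, setIntegral_const]
    simp only [Measure.real, Real.volume_Ico]
    have e : 1 - (u x - u' x) - -(u x - u' x) = 1 := by ring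
    rw [e, ENNReal.toReal_ofReal zero_le_one, one_smul]
  simp_rw [h2, hΨu] at h1
  have h3 : slabInt w u μ F = slabInt w u' μ F := h1
  rw [h3]
  unfold slabInt
  refine integral_weight_eq hw hw' ?_ (fun a x => by rw [hu'.inv, hΓ])
  exact ((Measurable.ite (measurableSet_slab hum') measurable_const measurable_const).smul
    hF).aestronglyMeasurable

end Flow

end Fermat.Agent.LT.F
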