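import Fermat.Agent.LT.F.Split
import Fermat.Agent.LT.F.Flow

/-!
# LT/F: the formula for the truncated trace
-/

set_option linter.unusedSectionVars false

open MeasureTheory MulAction Set
open scoped ENNReal

namespace Fermat.Agent.LT.F

open Fermat.Agent.LT.B

/-- a flow adapted to the cusps `∞`, `0`. -/
structure FlowData {G P X : Type*} [Group G] [MulAction G P] [MulAction G X] [MeasurableSpace X]
    (C : HtData G P X) (μ : Measure X) extends Flow C.T μ where
  /-- speed -/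
  c : ℝ
  c_pos : 0 < c
  h0 : ∀ s x, C.h C.c0 (φ s x) = Real.exp (c * s) * C.h C.c0 x
  h1 : ∀ s x, C.h C.c1 (φ s x) = Real.exp (-(c * s)) * C.h C.c1 x
  hs : ∀ s x, C.s (φ s x) = φ s (C.s x)

namespace FlowData

variable {G P X : Type*} [Group G] [MulAction G P] [MulAction G X] [MeasurableSpace X]
variable {C : HtData G P X} {μ : Measure X} (D : FlowData C μ)

/-- logarithmic height at `∞` -/
noncomputable def u (x : X) : ℝ := Real.log (C.h C.c0 x) / D.c

/-- logarithmic height at `0` -/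
noncomputable def v (x : X) : ℝ := Real.log (C.h C.c1 x) / D.c

/-- their sum -/
noncomputable def ω (x : X) : ℝ := D.u x + D.v x

theorem hT_c0 (a : C.T) (x : X) : C.h C.c0 (a • x) = C.h C.c0 x := by
  have h : (a : G) • C.c0 = C.c0 := (C.mem_T.mp a.2).1
  conv_lhs => rw [← h]
  exact C.h_smul (a : G) C.c0 x

theorem hT_c1 (a : C.T) (x : X) : C.h C.c1 (a • x) = C.h C.c1 x := by
  have h : (a : G) • C.c1 = C.c1 := (C.mem_T.mp a.2).2
  conv_lhs => rw [← h]
  exact C.h_smul (a : G) C.c1 x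

theorem isHt_u : D.toFlow.IsHt D.u where
  meas := (Real.measurable_log.comp (C.h_meas _)).div_const _
  inv a x := by rw [u, hT_c0]; rfl
  flow s x := by
    have := D.c_pos
    rw [u, D.h0, Real.log_mul (Real.exp_pos _).ne' (C.h_pos _ _).ne', Real.log_exp, u]
    field_simp
    ring

theorem isHt'_v : Flow.IsHt' D.toFlow D.v where
  meas := (Real.measurable_log.comp (C.h_meas _)).div_const _
  inv a x := by rw [v, hT_c1]; rfl
  flow s x := by
    have := D.c_pos
    rw [v, D.h1, Real.log_mul (Real.exp_pos _).ne' (C.h_pos _ _).ne', Real.log_exp, v]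
    field_simp
    ring

theorem ω_nonpos (x : X) : D.ω x ≤ 0 := by
  have h := C.h_sep C.c0 C.c1 x C.ne
  have hc := D.c_pos
  rw [ω, u, v, ← add_div, ← Real.log_mul (C.h_pos _ _).ne' (C.h_pos _ _).ne']
  apply div_nonpos_of_nonpos_of_nonneg _ hc.le
  exact Real.log_nonpos (mul_pos (C.h_pos _ _) (C.h_pos _ _)).le h

theorem mem_X2 {T : ℝ} (hT : 0 < T) {x : X} :
    x ∈ C.X2 T ↔ D.u x ≤ Real.log T / D.c ∧ D.v x ≤ Real.log T / D.c := by
  have hc := D.c_pos
  rw [u, v, div_le_div_iff_of_pos_right hc, div_le_div_iff_of_pos_right hc,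
    Real.log_le_log_iff (C.h_pos _ _) hT, Real.log_le_log_iff (C.h_pos _ _) hT]
  rfl

theorem τ_mem {a : G} (ha : a ∈ C.T) : C.τ a ∈ C.T := by
  obtain ⟨h0, h1⟩ := C.mem_T.mp ha
  refine C.mem_T.mpr ⟨?_, ?_⟩
  · conv_lhs => rw [← C.sP_c0]
    rw [← C.sP_smul, h0, C.sP_c0]
  · conv_lhs => rw [← C.sP_c1]
    rw [← C.sP_smul, h1, C.sP_c1]

/-- twisted conjugation on the torus -/
def conjT (C : HtData G P X) (t : C.T) : C.T ≃ C.T where
  toFun a := t * a * (⟨C.τ t, τ_mem t.2⟩ : C.T)⁻¹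
  invFun a := t⁻¹ * a * (⟨C.τ t, τ_mem t.2⟩ : C.T)
  left_inv a := by group
  right_inv a := by group

theorem conjT_coe (t a : C.T) : ((conjT C t a : C.T) : G) = t * a * (C.τ t)⁻¹ := rfl

variable {E : Type*} [NormedAddCommGroup E] {k : X → X → E} {B : ℝ}

theorem kap_smul (hk : C.IsKer k B) (t : C.T) (x : X) : C.kap k (t • x) = C.kap k x := by
  unfold HtData.kap
  rw [← (conjT C t).tsum_eq]
  refine tsum_congr fun a => ?_
  rw [conjT_coe]
  have e1 : k (t • x) (((t : G) * a * (C.τ t)⁻¹) • C.s (t • x)) = k x ((a : G) • C.s x) :=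
    hk.twist_inv (t : G) (a : G) x
  rw [e1]
  have e2 := C.hyp_conj (t : G) (a : G)
  by_cases h : C.Hyp (a : G)
  · rw [if_pos h, if_pos (e2.mpr h)]
  · rw [if_neg h, if_neg (fun h' => h (e2.mp h'))]

theorem kapN_smul (hk : C.IsKer k B) (t : C.T) (x : X) : C.kapN k (t • x) = C.kapN k x := by
  unfold HtData.kapN
  rw [← (conjT C t).tsum_eq]
  refine tsum_congr fun a => ?_
  rw [conjT_coe]
  have e1 : k (t • x) (((t : G) * a * (C.τ t)⁻¹) • C.s (t • x)) = k x ((a : G) • C.s x) :=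
    hk.twist_inv (t : G) (a : G) x
  rw [e1]
  have e2 := C.hyp_conj (t : G) (a : G)
  by_cases h : C.Hyp (a : G)
  · rw [if_pos h, if_pos (e2.mpr h)]
  · rw [if_neg h, if_neg (fun h' => h (e2.mp h'))]

theorem ker_flow (hkφ : ∀ s x y, k (D.φ s x) (D.φ s y) = k x y) (a : C.T) (s : ℝ) (x : X) :
    k (D.φ s x) ((a : G) • C.s (D.φ s x)) = k x ((a : G) • C.s x) := by
  have : (a : G) • C.s (D.φ s x) = D.φ s ((a : G) • C.s x) := by
    rw [D.hs]
    exact (D.comm a s (C.s x)).symm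
  rw [this, hkφ]

theorem kap_flow (hkφ : ∀ s x y, k (D.φ s x) (D.φ s y) = k x y) (s : ℝ) (x : X) :
    C.kap k (D.φ s x) = C.kap k x := by
  unfold HtData.kap
  refine tsum_congr fun a => ?_
  rw [D.ker_flow hkφ]

theorem kapN_flow (hkφ : ∀ s x y, k (D.φ s x) (D.φ s y) = k x y) (s : ℝ) (x : X) :
    C.kapN k (D.φ s x) = C.kapN k x := by
  unfold HtData.kapN
  refine tsum_congr fun a => ?_
  rw [D.ker_flow hkφ]

variable [MeasurableSpace G] [Countable G] [DiscreteMeasurableSpace G] [MeasurableConstSMul G X]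
  [Countable P]
variable [NormedSpace ℝ E] [CompleteSpace E] [SecondCountableTopology E] [MeasurableSpace E]
  [BorelSpace E]
variable [SFinite μ] [SMulInvariantMeasure G X μ]

instance : MeasurableConstSMul C.T X where
  measurable_const_smul a := measurable_const_smul (a : G)

instance : SMulInvariantMeasure C.T X μ where
  measure_preimage_smul a _ hs := measure_preimage_smul_of_nullMeasurableSet hs.nullMeasurableSet (a : G)

theorem measurable_kap (hm : ∀ γ : G, Measurable (fun x => k x (γ • C.s x))) :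
    Measurable (C.kap k) := by
  classical
  unfold HtData.kap
  refine Measurable.tsum fun a => ?_
  split_ifs
  · exact hm a
  · exact measurable_const

theorem measurable_kapN (hm : ∀ γ : G, Measurable (fun x => k x (γ • C.s x))) :
    Measurable (C.kapN k) := by
  classical
  unfold HtData.kapN
  refine Measurable.tsum fun a => ?_
  split_ifs
  · exact (hm a).enorm
  · exact measurable_const

/-- the coefficient of `log T` -/
noncomputable def PP (k : X → X → E) (wT : X → ℝ≥0∞) : E := Flow.slabInt wT D.u μ (C.kap k)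

/-- the weighted term -/
noncomputable def WW (k : X → X → E) (wT : X → ℝ≥0∞) : E :=
  Flow.slabInt wT D.u μ (fun x => D.ω x • C.kap k x)

/-- Absolute convergence of the weighted integrals. -/
theorem slab_ne_top (hk : C.IsKer k B) (hkφ : ∀ s x y, k (D.φ s x) (D.φ s y) = k x y)
    (hm : ∀ γ : G, Measurable (fun x => k x (γ • C.s x)))
    {wT : X → ℝ≥0∞} (hwT : IsWeight C.T wT) {T : ℝ} (hT : 1 < T)
    (hint : ∫⁻ x, wT x * (C.X2 T).indicator (C.kapN k) x ∂μ ≠ ∞) :
    Flow.slabL wT D.u μ (C.kapN k) ≠ ∞ ∧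
    Flow.slabL wT D.u μ (fun x => ‖D.ω x‖ₑ * C.kapN k x) ≠ ∞ := by
  have ht : 0 < Real.log T / D.c := div_pos (Real.log_pos hT) D.c_pos
  refine Flow.slabL_ne_top hwT D.isHt_u D.isHt'_v D.ω_nonpos (measurable_kapN hm)
    (kapN_smul hk) (D.kapN_flow hkφ) ht ?_
  refine ne_of_eq_of_ne (lintegral_congr fun x => ?_) hint
  congr 1
  by_cases hx : x ∈ C.X2 T
  · rw [indicator_of_mem hx, if_pos ((D.mem_X2 (by linarith)).mp hx)]
  · rw [indicator_of_notMem hx, if_neg (fun h => hx ((D.mem_X2 (by linarith)).mpr h))]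

/-- **Formula for the truncated trace.** -/
theorem JT_formula (hk : C.IsKer k B) (hkφ : ∀ s x y, k (D.φ s x) (D.φ s y) = k x y)
    (hm : ∀ γ : G, Measurable (fun x => k x (γ • C.s x)))
    {w wT : X → ℝ≥0∞} (hw : IsWeight G w) (hwT : IsWeight C.T wT) {T : ℝ} (hT : 1 < T)
    (hB : B ≤ T ^ 2)
    (hint : ∫⁻ x, w x * (C.XT T).indicator (fun x => ∑' γ : G, ‖k x (γ • C.s x)‖ₑ) x ∂μ ≠ ∞) :
    C.JT k w μ T = C.Jell k w μ + (Real.log T / D.c) • D.PP k wT - (2⁻¹ : ℝ) • D.WW k wT := by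
  obtain ⟨h1, h2⟩ := hk.JT_eq (by linarith) hB hw hwT (fun γ => (hm γ).aestronglyMeasurable) hint
  have ht : 0 < Real.log T / D.c := div_pos (Real.log_pos hT) D.c_pos
  have hX : ∀ x, (C.X2 T).indicator (C.kap k) x =
      if D.u x ≤ Real.log T / D.c ∧ D.v x ≤ Real.log T / D.c then C.kap k x else 0 := by
    intro x
    by_cases hx : x ∈ C.X2 T
    · rw [indicator_of_mem hx, if_pos ((D.mem_X2 (by linarith)).mp hx)]
    · rw [indicator_of_notMem hx, if_neg (fun h => hx ((D.mem_X2 (by linarith)).mpr h))]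
  have hkN : ∀ x, ‖C.kap k x‖ₑ ≤ C.kapN k x := by
    intro x
    unfold HtData.kap HtData.kapN
    refine enorm_tsum_le_tsum_enorm.trans (ENNReal.tsum_le_tsum fun a => ?_)
    split_ifs <;> simp
  have hfin : ∫⁻ x, wT x * (if D.u x ≤ Real.log T / D.c ∧ D.v x ≤ Real.log T / D.c
      then ‖C.kap k x‖ₑ else 0) ∂μ ≠ ∞ := by
    refine ne_top_of_le_ne_top h2 (lintegral_mono fun x => ?_)
    gcongr
    by_cases hx : x ∈ C.X2 T
    · rw [indicator_of_mem hx, if_pos ((D.mem_X2 (by linarith)).mp hx)]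
      exact hkN x
    · rw [indicator_of_notMem hx, if_neg (fun h => hx ((D.mem_X2 (by linarith)).mpr h))]
  obtain ⟨-, -, h3⟩ := Flow.flow_trunc hwT D.isHt_u D.isHt'_v D.ω_nonpos (measurable_kap hm)
    (kap_smul hk) (D.kap_flow hkφ) ht hfin
  rw [h1]
  simp_rw [hX]
  rw [h3, smul_sub, smul_smul, PP, WW]
  have e : (2⁻¹ : ℝ) * (2 * (Real.log T / D.c)) = Real.log T / D.c := by ring
  rw [e, add_sub_assoc]
  rfl

/-- If the truncated trace converges, the coefficient of `log T` vanishes. -/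
theorem PP_eq_zero (hk : C.IsKer k B) (hkφ : ∀ s x y, k (D.φ s x) (D.φ s y) = k x y)
    (hm : ∀ γ : G, Measurable (fun x => k x (γ • C.s x)))
    {w wT : X → ℝ≥0∞} (hw : IsWeight G w) (hwT : IsWeight C.T wT)
    (hint : ∀ T, ∫⁻ x, w x * (C.XT T).indicator (fun x => ∑' γ : G, ‖k x (γ • C.s x)‖ₑ) x ∂μ ≠ ∞)
    {L : E} (hL : Filter.Tendsto (C.JT k w μ) Filter.atTop (nhds L)) :
    D.PP k wT = 0 ∧ L = C.Jell k w μ - (2⁻¹ : ℝ) • D.WW k wT := by
  have hev : ∀ᶠ T in Filter.atTop, C.JT k w μ T =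
      C.Jell k w μ + (Real.log T / D.c) • D.PP k wT - (2⁻¹ : ℝ) • D.WW k wT := by
    filter_upwards [Filter.eventually_gt_atTop 1, Filter.eventually_ge_atTop B] with T h1 h2
    refine D.JT_formula hk hkφ hm hw hwT h1 ?_ (hint T)
    nlinarith
  have hc := D.c_pos
  have hP : D.PP k wT = 0 := by
    by_contra hne
    have ht : Filter.Tendsto (fun T : ℝ => (Real.log T / D.c) • D.PP k wT) Filter.atTop
        (nhds (L - C.Jell k w μ + (2⁻¹ : ℝ) • D.WW k wT)) := by
      have := ((hL.congr' hev).sub_const (C.Jell k w μ)).add_const ((2⁻¹ : ℝ) • D.WW k wT)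
      refine this.congr fun T => ?_
      abel
    have h1 := ht.norm
    have h2 : Filter.Tendsto (fun T : ℝ => ‖(Real.log T / D.c) • D.PP k wT‖) Filter.atTop
        Filter.atTop := by
      simp_rw [norm_smul]
      refine Filter.Tendsto.atTop_mul_const (norm_pos_iff.mpr hne) ?_
      refine tendsto_norm_atTop_atTop.comp ?_
      exact Real.tendsto_log_atTop.atTop_div_const hc
    exact not_tendsto_nhds_of_tendsto_atTop h2 _ h1
  refine ⟨hP, ?_⟩
  refine tendsto_nhds_unique hL ?_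
  refine (tendsto_const_nhds (x := C.Jell k w μ - (2⁻¹ : ℝ) • D.WW k wT)).congr' ?_
  filter_upwards [hev] with T hT
  rw [hT, hP, smul_zero, add_zero]

end FlowData

end Fermat.Agent.LT.F
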