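import Fermat.Agent.LT.F.Pairs

/-!
# LT/F: the hyperbolic classes

`P` is the set of cusps, `c0 = ∞`, `c1 = 0` the base cusps, `T` the stabiliser of both.
-/

set_option linter.unusedSectionVars false

open MeasureTheory MulAction Set
open scoped ENNReal

namespace Fermat.Agent.LT.F

open Fermat.Agent.LT.B

/-- Combinatorial data of the cusps. -/
structure Cusps (G P : Type*) [Group G] [MulAction G P] where
  /-- the twist on the group -/
  τ : G →* G
  /-- the twist on the cusps -/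
  sP : P → P
  sP_smul : ∀ g ξ, sP (g • ξ) = τ g • sP ξ
  /-- the cusp `∞` -/
  c0 : P
  /-- the cusp `0` -/
  c1 : P
  ne : c0 ≠ c1
  sP_c0 : sP c0 = c0
  sP_c1 : sP c1 = c1
  trans : ∀ ξ η : P, ξ ≠ η → ∃ g : G, g • c0 = ξ ∧ g • c1 = η

namespace Cusps

variable {G P : Type*} [Group G] [MulAction G P] (C : Cusps G P)

/-- the torus -/
def T : Subgroup G := stabilizer G C.c0 ⊓ stabilizer G C.c1

theorem mem_T {g : G} : g ∈ C.T ↔ g • C.c0 = C.c0 ∧ g • C.c1 = C.c1 := by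
  rw [T, Subgroup.mem_inf, mem_stabilizer_iff, mem_stabilizer_iff]

/-- fixed cusps of `γ ∘ s` -/
def Fix (γ : G) : Set P := {ξ | γ • C.sP ξ = ξ}

theorem mem_Fix {γ : G} {ξ : P} : ξ ∈ C.Fix γ ↔ γ • C.sP ξ = ξ := Iff.rfl

/-- `γ ∘ s` is hyperbolic: exactly two fixed cusps -/
def Hyp (γ : G) : Prop := ∃ ξ η, ξ ≠ η ∧ C.Fix γ = {ξ, η}

/-- `γ ∘ s` is elliptic: no fixed cusps -/
def Ell (γ : G) : Prop := C.Fix γ = ∅

theorem mem_Fix_conj {g γ : G} {ξ : P} : g • ξ ∈ C.Fix (g * γ * (C.τ g)⁻¹) ↔ ξ ∈ C.Fix γ := by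
  rw [mem_Fix, mem_Fix, C.sP_smul, mul_smul, mul_smul, inv_smul_smul]
  exact smul_left_cancel_iff g

theorem Fix_conj (g γ : G) : C.Fix (g * γ * (C.τ g)⁻¹) = (fun ξ => g • ξ) '' C.Fix γ := by
  ext ζ
  constructor
  · intro h
    refine ⟨g⁻¹ • ζ, ?_, smul_inv_smul g ζ⟩
    rw [← mem_Fix_conj (g := g), smul_inv_smul]
    exact h
  · rintro ⟨ξ, h, rfl⟩
    exact C.mem_Fix_conj.mpr h

theorem hyp_conj (g γ : G) : C.Hyp (g * γ * (C.τ g)⁻¹) ↔ C.Hyp γ := by
  constructor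
  · rintro ⟨ξ, η, hne, h⟩
    refine ⟨g⁻¹ • ξ, g⁻¹ • η, fun h' => hne (smul_left_cancel _ h'), ?_⟩
    rw [Fix_conj] at h
    ext ζ
    have := Set.ext_iff.mp h (g • ζ)
    simp only [Set.mem_insert_iff, Set.mem_singleton_iff] at this ⊢
    rw [(MulAction.injective (α := G) (β := P) g).mem_set_image (s := C.Fix γ)] at this
    rw [this, ← smul_eq_iff_eq_inv_smul, ← smul_eq_iff_eq_inv_smul]
  · rintro ⟨ξ, η, hne, h⟩
    refine ⟨g • ξ, g • η, fun h' => hne (smul_left_cancel _ h'), ?_⟩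
    rw [Fix_conj, h, Set.image_pair]

theorem ell_conj (g γ : G) : C.Ell (g * γ * (C.τ g)⁻¹) ↔ C.Ell γ := by
  unfold Ell
  rw [Fix_conj, Set.image_eq_empty]

theorem conj_mem_T_iff {g γ : G} : g * γ * (C.τ g)⁻¹ ∈ C.T ↔
    g⁻¹ • C.c0 ∈ C.Fix γ ∧ g⁻¹ • C.c1 ∈ C.Fix γ := by
  rw [← C.mem_Fix_conj (g := g) (ξ := g⁻¹ • C.c0), ← C.mem_Fix_conj (g := g) (ξ := g⁻¹ • C.c1),
    smul_inv_smul, smul_inv_smul, mem_Fix, mem_Fix, C.sP_c0, C.sP_c1, mem_T]

variable {X : Type*} [MulAction G X] [MeasurableSpace X]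

theorem tsum_coset {wT : X → ℝ≥0∞} (hwT : IsWeight C.T wT) (x : X) {ξ η : P} (hne : ξ ≠ η) 
    [∀ g : G, Decidable (g⁻¹ • C.c0 = ξ ∧ g⁻¹ • C.c1 = η)] :
    ∑' g : G, (if g⁻¹ • C.c0 = ξ ∧ g⁻¹ • C.c1 = η then wT (g • x) else 0) = 1 := by
  obtain ⟨g₁, h0, h1⟩ := C.trans ξ η hne
  rw [← hwT.sum_eq (g₁⁻¹ • x)]
  have hinj : Function.Injective (fun t : C.T => (t : G) * g₁⁻¹) := fun a b h =>
    Subtype.ext (mul_right_cancel h)
  rw [← hinj.tsum_eq]
  · refine tsum_congr fun t => ?_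
    obtain ⟨ht0, ht1⟩ := C.mem_T.mp (inv_mem t.2)
    rw [if_pos]
    · rw [mul_smul]; rfl
    · rw [_root_.mul_inv_rev, inv_inv, mul_smul, mul_smul, ht0, ht1]
      exact ⟨h0, h1⟩
  · intro g hg
    simp only [Function.mem_support, ne_eq, ite_eq_right_iff, Classical.not_imp] at hg
    obtain ⟨⟨hg0, hg1⟩, -⟩ := hg
    refine ⟨⟨g * g₁, C.mem_T.mpr ⟨?_, ?_⟩⟩, ?_⟩
    · rw [mul_smul, h0, ← hg0, smul_inv_smul]
    · rw [mul_smul, h1, ← hg1, smul_inv_smul]
    · simp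

open Classical in
/-- the main combinatorial identity -/
theorem tsum_hyp {wT : X → ℝ≥0∞} (hwT : IsWeight C.T wT) (x : X) {γ : G} (hγ : C.Hyp γ) :
    ∑' g : G, (if g * γ * (C.τ g)⁻¹ ∈ C.T then wT (g • x) else 0) = 2 := by
  obtain ⟨ξ, η, hne, h⟩ := hγ
  have key : ∀ g : G, (if g * γ * (C.τ g)⁻¹ ∈ C.T then wT (g • x) else 0) =
      (if g⁻¹ • C.c0 = ξ ∧ g⁻¹ • C.c1 = η then wT (g • x) else 0) +
      (if g⁻¹ • C.c0 = η ∧ g⁻¹ • C.c1 = ξ then wT (g • x) else 0) := by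
    intro g
    have hcne : g⁻¹ • C.c0 ≠ g⁻¹ • C.c1 := fun h' => C.ne (smul_left_cancel _ h')
    have h1 : g * γ * (C.τ g)⁻¹ ∈ C.T ↔ (g⁻¹ • C.c0 = ξ ∧ g⁻¹ • C.c1 = η) ∨
        (g⁻¹ • C.c0 = η ∧ g⁻¹ • C.c1 = ξ) := by
      rw [conj_mem_T_iff, h]
      simp only [Set.mem_insert_iff, Set.mem_singleton_iff]
      constructor
      · rintro ⟨h1 | h1, h2 | h2⟩
        · exact absurd (h1.trans h2.symm) hcne
        · exact Or.inl ⟨h1, h2⟩
        · exact Or.inr ⟨h1, h2⟩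
        · exact absurd (h1.trans h2.symm) hcne
      · rintro (⟨h1, h2⟩ | ⟨h1, h2⟩)
        · exact ⟨Or.inl h1, Or.inr h2⟩
        · exact ⟨Or.inr h1, Or.inl h2⟩
    by_cases ha : g⁻¹ • C.c0 = ξ ∧ g⁻¹ • C.c1 = η
    · have hb : ¬ (g⁻¹ • C.c0 = η ∧ g⁻¹ • C.c1 = ξ) := fun hb => hne (ha.1.symm.trans hb.1)
      rw [if_pos (h1.mpr (Or.inl ha)), if_pos ha, if_neg hb, add_zero]
    · by_cases hb : g⁻¹ • C.c0 = η ∧ g⁻¹ • C.c1 = ξ
      · rw [if_pos (h1.mpr (Or.inr hb)), if_neg ha, if_pos hb, zero_add]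
      · rw [if_neg (fun h' => (h1.mp h').elim ha hb), if_neg ha, if_neg hb, add_zero]
  simp_rw [key]
  rw [ENNReal.tsum_add, C.tsum_coset hwT x hne, C.tsum_coset hwT x (Ne.symm hne)]
  norm_num

open Classical in
/-- the weight on the pair space which lives on the torus on the hyperbolic part -/
noncomputable def w2 (w wT : X → ℝ≥0∞) (p : TwP C.τ X) : ℝ≥0∞ :=
  if C.Hyp p.2 then (if p.2 ∈ C.T then wT p.1 / 2 else 0) else w p.1

variable [MeasurableSpace G] [Countable G] [DiscreteMeasurableSpace G] [MeasurableConstSMul G X]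

theorem isWeight_w2 {w wT : X → ℝ≥0∞} (hw : IsWeight G w) (hwT : IsWeight C.T wT) :
    IsWeight G (C.w2 w wT) where
  meas := by
    classical
    refine measurable_from_prod_countable_left (f := C.w2 w wT) fun γ => ?_
    unfold w2
    simp only
    split_ifs
    · exact hwT.meas.div_const 2
    · exact measurable_const
    · exact hw.meas
  sum_eq p := by
    classical
    by_cases h : C.Hyp p.2
    · have h1 : ∀ g : G, C.w2 w wT (g • p) =
          (if g * p.2 * (C.τ g)⁻¹ ∈ C.T then wT (g • p.1) else 0) * 2⁻¹ := by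
        intro g
        change (if C.Hyp (g * p.2 * (C.τ g)⁻¹) then
          (if g * p.2 * (C.τ g)⁻¹ ∈ C.T then wT (g • p.1) / 2 else 0) else w (g • p.1)) = _
        rw [if_pos ((C.hyp_conj _ _).mpr h)]
        split_ifs
        · rfl
        · simp
      simp_rw [h1]
      rw [ENNReal.tsum_mul_right, C.tsum_hyp hwT p.1 h]
      exact ENNReal.mul_inv_cancel (by norm_num) (by norm_num)
    · have h1 : ∀ g : G, C.w2 w wT (g • p) = w (g • p.1) := by
        intro g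
        change (if C.Hyp (g * p.2 * (C.τ g)⁻¹) then
          (if g * p.2 * (C.τ g)⁻¹ ∈ C.T then wT (g • p.1) / 2 else 0) else w (g • p.1)) = _
        rw [if_neg (fun h' => h ((C.hyp_conj _ _).mp h'))]
      simp_rw [h1]
      exact hw.sum_eq p.1

variable {E : Type*} [NormedAddCommGroup E] [NormedSpace ℝ E] [CompleteSpace E]
  [SecondCountableTopology E]
variable {μ : Measure X} [SFinite μ] [SMulInvariantMeasure G X μ]

open Classical in
/-- **Unfolding of the hyperbolic part.** -/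
theorem hyp_unfold {w wT : X → ℝ≥0∞} (hw : IsWeight G w) (hwT : IsWeight C.T wT)
    {Φ : G → X → E} (hΦ : ∀ γ, AEStronglyMeasurable (Φ γ) μ)
    (hinv : ∀ g γ x, Φ (g * γ * (C.τ g)⁻¹) (g • x) = Φ γ x)
    (hint : ∫⁻ x, w x * ∑' γ : G, (if C.Hyp γ then ‖Φ γ x‖ₑ else 0) ∂μ ≠ ∞) :
    (∫ x, (w x).toReal • ∑' γ : G, (if C.Hyp γ then Φ γ x else 0) ∂μ =
      (2⁻¹ : ℝ) • ∫ x, (wT x).toReal • ∑' a : C.T, (if C.Hyp (a : G) then Φ a x else 0) ∂μ) ∧
    ∫⁻ x, wT x * ∑' a : C.T, (if C.Hyp (a : G) then ‖Φ a x‖ₑ else 0) ∂μ ≠ ∞ := by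
  set F : TwP C.τ X → E := fun p => if C.Hyp p.2 then Φ p.2 p.1 else 0 with hF
  have hFm : ∀ γ, AEStronglyMeasurable (fun x => F (x, γ)) μ := by
    intro γ
    simp only [hF]
    split_ifs
    · exact hΦ γ
    · exact aestronglyMeasurable_const
  have hFinv : ∀ (g : G) (p : TwP C.τ X), F (g • p) = F p := by
    intro g p
    change (if C.Hyp (g * p.2 * (C.τ g)⁻¹) then Φ (g * p.2 * (C.τ g)⁻¹) (g • p.1) else 0) = _
    rw [hinv]
    simp only [hF, C.hyp_conj]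
  have hW1 : IsWeight G (fun p : TwP C.τ X => w p.1) :=
    IsWeight.comp hw (Z := TwP C.τ X) (f := fun p => p.1) measurable_fst (fun _ _ => rfl)
  have hW2 := C.isWeight_w2 hw hwT
  have hFae := TwP.aestronglyMeasurable_meas C.τ hFm
  have hmain := integral_weight_eq (μ := TwP.meas C.τ μ) hW1 hW2 hFae hFinv
  have hnorm : ∀ p, ‖F p‖ₑ = if C.Hyp p.2 then ‖Φ p.2 p.1‖ₑ else 0 := by
    intro p; simp only [hF]; split_ifs <;> simp
  -- lintegral comparison
  have hl : ∫⁻ p, w p.1 * ‖F p‖ₑ ∂TwP.meas C.τ μ = ∫⁻ p, C.w2 w wT p * ‖F p‖ₑ ∂TwP.meas C.τ μ :=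
    hW1.lintegral_eq hW2 hFae.enorm (fun g p => by rw [hFinv])
  have hprod : ∀ v : TwP C.τ X → ℝ≥0∞, Measurable v →
      ∫⁻ p, v p * ‖F p‖ₑ ∂TwP.meas C.τ μ = ∫⁻ x, ∑' γ : G, v (x, γ) * ‖F (x, γ)‖ₑ ∂μ := by
    intro v hv
    have hae : AEMeasurable (fun p : X × G => v p * ‖F p‖ₑ) (μ.prod (Measure.count : Measure G)) :=
      AEMeasurable.mul (show AEMeasurable (fun p : X × G => v p) _ from
        (show Measurable (fun p : X × G => v p) from hv).aemeasurable)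
        (show AEMeasurable (fun p : X × G => ‖F p‖ₑ) _ from hFae.enorm)
    change ∫⁻ p : X × G, v p * ‖F p‖ₑ ∂(μ.prod (Measure.count : Measure G)) = _
    rw [lintegral_prod _ hae]
    congr 1
    ext x
    exact lintegral_count _
  rw [hprod _ hW1.meas, hprod _ hW2.meas] at hl
  have hl1 : ∫⁻ x, ∑' γ : G, w x * ‖F (x, γ)‖ₑ ∂μ ≠ ∞ := by
    simpa only [ENNReal.tsum_mul_left, hnorm] using hint
  have hl2 : ∫⁻ x, ∑' γ : G, C.w2 w wT (x, γ) * ‖F (x, γ)‖ₑ ∂μ ≠ ∞ := by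
    rw [← hl]; exact hl1
  -- the T-sum
  have hsumT : ∀ x, ∑' γ : G, C.w2 w wT (x, γ) * ‖F (x, γ)‖ₑ =
      2⁻¹ * (wT x * ∑' a : C.T, (if C.Hyp (a : G) then ‖Φ a x‖ₑ else 0)) := by
    intro x
    rw [← ENNReal.tsum_mul_left, ← ENNReal.tsum_mul_left]
    have hinj : Function.Injective (fun a : C.T => (a : G)) := Subtype.val_injective
    rw [← hinj.tsum_eq]
    · refine tsum_congr fun a => ?_
      rw [hnorm]
      unfold w2
      simp only
      split_ifs with h1 h2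
      · rw [div_eq_mul_inv]; ring
      · exact absurd a.2 h2
      · simp
    · intro γ hγ
      rw [Function.mem_support] at hγ
      by_contra hc
      apply hγ
      have hnT : γ ∉ C.T := fun h => hc ⟨⟨γ, h⟩, rfl⟩
      rw [hnorm]
      unfold w2
      simp only
      split_ifs <;> simp
  constructor
  · have i1 : Integrable (fun p : TwP C.τ X => (w p.1).toReal • F p) (TwP.meas C.τ μ) := by
      refine integrable_weight hW1 hFae ?_
      rw [hprod _ hW1.meas]; exact hl1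
    have i2 : Integrable (fun p : TwP C.τ X => (C.w2 w wT p).toReal • F p) (TwP.meas C.τ μ) := by
      refine integrable_weight hW2 hFae ?_
      rw [hprod _ hW2.meas]; exact hl2
    rw [TwP.integral_meas C.τ i1, TwP.integral_meas C.τ i2] at hmain
    have e1 : ∫ x, ∑' γ : G, (w x).toReal • F (x, γ) ∂μ =
        ∫ x, (w x).toReal • ∑' γ : G, (if C.Hyp γ then Φ γ x else 0) ∂μ := by
      refine integral_congr_ae (Filter.Eventually.of_forall fun x => ?_)
      beta_reduce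
      by_cases hx : (w x).toReal = 0
      · simp [hx]
      · rw [← tsum_const_smul'' (w x).toReal]
    have e2 : ∫ x, ∑' γ : G, (C.w2 w wT (x, γ)).toReal • F (x, γ) ∂μ =
        (2⁻¹ : ℝ) • ∫ x, (wT x).toReal • ∑' a : C.T, (if C.Hyp (a : G) then Φ a x else 0) ∂μ := by
      rw [← integral_smul]
      refine integral_congr_ae (Filter.Eventually.of_forall fun x => ?_)
      beta_reduce
      rw [← tsum_const_smul'' (wT x).toReal, ← tsum_const_smul'' (2⁻¹ : ℝ)]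
      have hinj : Function.Injective (fun a : C.T => (a : G)) := Subtype.val_injective
      rw [← hinj.tsum_eq]
      · refine tsum_congr fun a => ?_
        unfold w2
        simp only [hF]
        split_ifs with h1 h2
        · rw [ENNReal.toReal_div, ENNReal.toReal_ofNat, smul_smul]
          congr 1; ring
        · exact absurd a.2 h2
        · simp
      · intro γ hγ
        rw [Function.mem_support] at hγ
        by_contra hc
        apply hγ
        have hnT : γ ∉ C.T := fun h => hc ⟨⟨γ, h⟩, rfl⟩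
        unfold w2
        simp only [hF]
        split_ifs <;> simp
    rw [← e1, ← e2]
    exact hmain
  · rw [lintegral_congr hsumT, lintegral_const_mul' _ _ (by norm_num)] at hl2
    intro h
    rw [h] at hl2
    exact hl2 (ENNReal.mul_top (by norm_num))

end Cusps

end Fermat.Agent.LT.F
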