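import Fermat.Agent.LT.B.Quot

/-!
# LT/F: unfolding of sums over (twisted) conjugacy classes with weights

`G` acts on `X`, `τ : G →* G`.  `TwP τ X = X × G` with the action `g (x, γ) = (g x, g γ τ(g)⁻¹)`.
A kernel function `(x, γ) ↦ k(x, γ s x)` is an invariant function on `TwP τ X`.
Changing the weight on `TwP τ X` gives all the unfolding identities needed for the geometric side.
-/

set_option linter.unusedSectionVars false

open MeasureTheory MulAction Set
open scoped ENNReal

namespace Fermat.Agent.LT.F

open Fermat.Agent.LT.B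

section Indep

variable {Γ X : Type*} [Group Γ] [MulAction Γ X] [MeasurableSpace X]
variable [Countable Γ] [MeasurableConstSMul Γ X] {μ : Measure X} [SMulInvariantMeasure Γ X μ]
variable {E : Type*} [NormedAddCommGroup E] [NormedSpace ℝ E] [CompleteSpace E]
  [SecondCountableTopology E]

/-- the integral of an invariant function does not depend on the weight. -/
theorem integral_weight_eq {w w' : X → ℝ≥0∞} (hw : IsWeight Γ w) (hw' : IsWeight Γ w')
    {F : X → E} (hF : AEStronglyMeasurable F μ) (hinv : ∀ (γ : Γ) x, F (γ • x) = F x) :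
    ∫ x, (w x).toReal • F x ∂μ = ∫ x, (w' x).toReal • F x ∂μ := by
  have h1 : AEStronglyMeasurable (desc F hinv) (qMeas Γ μ w) := by
    rw [aestronglyMeasurable_qMeas_iff hw]; exact hF
  have h2 : AEStronglyMeasurable (desc F hinv) (qMeas Γ μ w') := by
    rw [aestronglyMeasurable_qMeas_iff hw']; exact hF
  have e1 := integral_qMeas hw (desc F hinv) h1
  have e2 := integral_qMeas hw' (desc F hinv) h2
  rw [qMeas_congr hw hw'] at e1
  exact e1.symm.trans e2

theorem integrable_weight {w : X → ℝ≥0∞} (hw : IsWeight Γ w) {F : X → E}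
    (hF : AEStronglyMeasurable F μ) (h : ∫⁻ x, w x * ‖F x‖ₑ ∂μ ≠ ∞) :
    Integrable (fun x => (w x).toReal • F x) μ := by
  refine ⟨hw.meas.ennreal_toReal.aestronglyMeasurable.smul hF, ?_⟩
  unfold HasFiniteIntegral
  have : ∀ x, ‖(w x).toReal • F x‖ₑ = w x * ‖F x‖ₑ := fun x => by
    rw [enorm_smul, Real.enorm_eq_ofReal ENNReal.toReal_nonneg, ENNReal.ofReal_toReal (hw.ne_top x)]
  simp_rw [this]
  exact h.lt_top

omit [Countable Γ] [MeasurableConstSMul Γ X] in
/-- lifting a weight to a space mapping equivariantly. -/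
theorem IsWeight.comp {Z : Type*} [MulAction Γ Z] [MeasurableSpace Z] {w : X → ℝ≥0∞}
    (hw : IsWeight Γ w) {f : Z → X} (hf : Measurable f) (hfe : ∀ (γ : Γ) z, f (γ • z) = γ • f z) :
    IsWeight Γ (fun z => w (f z)) where
  meas := hw.meas.comp hf
  sum_eq z := by simp_rw [hfe]; exact hw.sum_eq (f z)

end Indep

/-! ### the pair space -/

/-- The space of pairs `(x, γ)` with the twisted conjugation action. -/
def TwP {G : Type*} [Group G] (_τ : G →* G) (X : Type*) : Type _ := X × G

namespace TwP

variable {G X : Type*} [Group G] [MulAction G X] (τ : G →* G)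

instance instMulAction : MulAction G (TwP τ X) where
  smul g p := (g • p.1, g * p.2 * (τ g)⁻¹)
  one_smul p := by
    change ((1 : G) • p.1, 1 * p.2 * (τ 1)⁻¹) = p
    rw [one_smul, map_one, inv_one, one_mul, mul_one]
    rfl
  mul_smul g h p := by
    change ((g * h) • p.1, g * h * p.2 * (τ (g * h))⁻¹) =
      (g • h • p.1, g * (h * p.2 * (τ h)⁻¹) * (τ g)⁻¹)
    rw [mul_smul, map_mul, _root_.mul_inv_rev]
    simp only [mul_assoc]

theorem smul_def (g : G) (p : TwP τ X) :
    g • p = ((g • p.1, g * p.2 * (τ g)⁻¹) : X × G) := rfl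

variable [MeasurableSpace X] [MeasurableSpace G]

instance : MeasurableSpace (TwP τ X) := inferInstanceAs (MeasurableSpace (X × G))

/-- product of `μ` and the counting measure. -/
noncomputable def meas (μ : Measure X) : Measure (TwP τ X) := μ.prod (Measure.count : Measure G)

variable [Countable G] [DiscreteMeasurableSpace G]

/-- the twisted conjugation as an equivalence. -/
def conjEquiv (g : G) : G ≃ G where
  toFun γ := g * γ * (τ g)⁻¹
  invFun γ := g⁻¹ * γ * τ g
  left_inv γ := by group
  right_inv γ := by group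

theorem measurePreserving_conj (g : G) :
    MeasurePreserving (fun γ => g * γ * (τ g)⁻¹) (Measure.count : Measure G) Measure.count := by
  refine ⟨measurable_of_countable _, ?_⟩
  refine Measure.ext fun s hs => ?_
  rw [Measure.map_apply (measurable_of_countable _) hs]
  rw [Measure.count_apply (by measurability), Measure.count_apply hs]
  have : (fun γ => g * γ * (τ g)⁻¹) ⁻¹' s = (conjEquiv τ g) ⁻¹' s := rfl
  rw [this]
  exact congrArg _ (Set.encard_preimage_of_bijective (conjEquiv τ g).bijective s)

variable [MeasurableConstSMul G X]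

instance : MeasurableConstSMul G (TwP τ X) where
  measurable_const_smul g := by
    have : Measurable (fun p : X × G => (g • p.1, g * p.2 * (τ g)⁻¹)) :=
      ((measurable_const_smul g).comp measurable_fst).prodMk
        ((measurable_of_countable (fun γ : G => g * γ * (τ g)⁻¹)).comp measurable_snd)
    exact this

instance {μ : Measure X} [SFinite μ] [SMulInvariantMeasure G X μ] :
    SMulInvariantMeasure G (TwP τ X) (meas τ μ) where
  measure_preimage_smul g s hs := by
    have h := (measurePreserving_smul g μ).prod (measurePreserving_conj τ g)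
    have : (fun p : TwP τ X => g • p) ⁻¹' s =
      (Prod.map (fun x : X => g • x) (fun γ => g * γ * (τ g)⁻¹)) ⁻¹' s := rfl
    rw [this]
    exact h.measure_preimage hs.nullMeasurableSet

theorem lintegral_meas {μ : Measure X} [SFinite μ] {F : TwP τ X → ℝ≥0∞} (hF : Measurable F) :
    ∫⁻ p, F p ∂meas τ μ = ∫⁻ x, ∑' γ : G, F (x, γ) ∂μ := by
  change ∫⁻ p : X × G, F p ∂(μ.prod (Measure.count : Measure G)) = _
  rw [lintegral_prod _ (show AEMeasurable (fun p : X × G => F p) _ from hF.aemeasurable)]
  congr 1
  ext x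
  exact lintegral_count _

variable {E : Type*} [NormedAddCommGroup E] [NormedSpace ℝ E] [CompleteSpace E]
  [SecondCountableTopology E]

theorem aestronglyMeasurable_meas {μ : Measure X} [SFinite μ] {F : TwP τ X → E}
    (hF : ∀ γ, AEStronglyMeasurable (fun x => F (x, γ)) μ) :
    AEStronglyMeasurable F (meas τ μ) := by
  borelize E
  -- choose measurable representatives
  have h : ∀ γ, ∃ g : X → E, Measurable g ∧ (fun x => F (x, γ)) =ᵐ[μ] g := fun γ =>
    ⟨(hF γ).aemeasurable.mk _, (hF γ).aemeasurable.measurable_mk, (hF γ).aemeasurable.ae_eq_mk⟩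
  choose g hg hFg using h
  refine AEMeasurable.aestronglyMeasurable ⟨fun p => g p.2 p.1, ?_, ?_⟩
  · exact measurable_from_prod_countable_left (fun γ => hg γ)
  · have h1 : ∀ᵐ x ∂μ, ∀ γ, F (x, γ) = g γ x := ae_all_iff.mpr hFg
    have h2 : ∀ᵐ p ∂(μ.prod (Measure.count : Measure G)), ∀ γ, F (p.1, γ) = g γ p.1 :=
      (Measure.quasiMeasurePreserving_fst).ae h1
    filter_upwards [h2] with p hp using hp p.2

theorem integral_meas {μ : Measure X} [SFinite μ] {F : TwP τ X → E}
    (hF : Integrable F (meas τ μ)) :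
    ∫ p, F p ∂meas τ μ = ∫ x, ∑' γ : G, F (x, γ) ∂μ := by
  change Integrable (fun p : X × G => F p) (μ.prod (Measure.count : Measure G)) at hF
  change ∫ p : X × G, F p ∂(μ.prod (Measure.count : Measure G)) = _
  rw [integral_prod _ hF]
  have h1 := hF.prod_right_ae
  refine integral_congr_ae ?_
  filter_upwards [h1] with x hx
  exact integral_countable hx |>.trans (by
    congr 1
    ext γ
    simp [Measure.real])

theorem integrable_meas_iff {μ : Measure X} [SFinite μ] {F : TwP τ X → E}
    (hF : ∀ γ, AEStronglyMeasurable (fun x => F (x, γ)) μ) :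
    Integrable F (meas τ μ) ↔ ∫⁻ x, ∑' γ : G, ‖F (x, γ)‖ₑ ∂μ ≠ ∞ := by
  have hF' := aestronglyMeasurable_meas τ hF
  rw [Integrable, and_iff_right hF']
  unfold HasFiniteIntegral
  have : ∫⁻ p, ‖F p‖ₑ ∂meas τ μ = ∫⁻ x, ∑' γ : G, ‖F (x, γ)‖ₑ ∂μ := by
    change ∫⁻ p : X × G, ‖F p‖ₑ ∂(μ.prod (Measure.count : Measure G)) = _
    rw [lintegral_prod _ (show AEMeasurable (fun p : X × G => ‖F p‖ₑ) _ from hF'.enorm)]
    congr 1
    ext x
    exact lintegral_count _
  rw [this, lt_top_iff_ne_top]

end TwP

end Fermat.Agent.LT.F
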