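import Fermat.Agent.LT.F.Hyp

/-!
# LT/F: truncation

`h ξ x` heights, `XT T = {x | ∀ ξ, h ξ x ≤ T}`.  For `T` large the truncated twisted trace is
the full elliptic part plus `1/2` of an integral over `T \ {h_∞, h_0 ≤ T}`.
-/

set_option linter.unusedSectionVars false

open MeasureTheory MulAction Set
open scoped ENNReal

namespace Fermat.Agent.LT.F

open Fermat.Agent.LT.B

/-- Cusps with heights on a space. -/
structure HtData (G P X : Type*) [Group G] [MulAction G P] [MulAction G X] [MeasurableSpace X]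
    extends Cusps G P where
  /-- the twist on the space -/
  s : X → X
  s_smul : ∀ g x, s (g • x) = τ g • s x
  /-- the heights -/
  h : P → X → ℝ
  h_pos : ∀ ξ x, 0 < h ξ x
  h_smul : ∀ (g : G) ξ x, h (g • ξ) (g • x) = h ξ x
  h_s : ∀ ξ x, h (sP ξ) (s x) = h ξ x
  h_meas : ∀ ξ, Measurable (h ξ)
  h_sep : ∀ ξ η x, ξ ≠ η → h ξ x * h η x ≤ 1

namespace HtData

variable {G P X : Type*} [Group G] [MulAction G P] [MulAction G X] [MeasurableSpace X]
variable (C : HtData G P X)

/-- the truncated space -/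
def XT (T : ℝ) : Set X := {x | ∀ ξ, C.h ξ x ≤ T}

theorem mem_XT {T : ℝ} {x : X} : x ∈ C.XT T ↔ ∀ ξ, C.h ξ x ≤ T := Iff.rfl

theorem h_smul' (g : G) (ξ : P) (x : X) : C.h ξ (g • x) = C.h (g⁻¹ • ξ) x := by
  rw [← C.h_smul g (g⁻¹ • ξ) x, smul_inv_smul]

theorem smul_mem_XT {T : ℝ} {g : G} {x : X} : g • x ∈ C.XT T ↔ x ∈ C.XT T := by
  constructor
  · intro h ξ
    have := h (g • ξ)
    rwa [C.h_smul] at this
  · intro h ξ
    rw [C.h_smul']
    exact h _

theorem measurableSet_XT [Countable P] (T : ℝ) : MeasurableSet (C.XT T) := by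
  have : C.XT T = ⋂ ξ, {x | C.h ξ x ≤ T} := by ext x; simp [XT]
  rw [this]
  exact MeasurableSet.iInter fun ξ => measurableSet_le (C.h_meas ξ) measurable_const

variable {E : Type*} [NormedAddCommGroup E]

/-- A kernel adapted to the height data: invariant, and its support only connects points with
comparable heights. -/
structure IsKer (k : X → X → E) (B : ℝ) : Prop where
  inv : ∀ (g : G) x y, k (g • x) (g • y) = k x y
  comp : ∀ x y, k x y ≠ 0 → ∀ ξ, C.h ξ y ≤ B * C.h ξ x
  good : ∀ γ x, k x (γ • C.s x) ≠ 0 → C.Hyp γ ∨ C.Ell γ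

variable {C} {k : X → X → E} {B : ℝ}

/-- near a cusp only elements fixing the cusp contribute -/
theorem IsKer.fix (hk : C.IsKer k B) {T₀ : ℝ} (h0 : 0 ≤ T₀) (hB : B ≤ T₀ ^ 2) {γ : G} {x : X}
    (hx : k x (γ • C.s x) ≠ 0) {ξ : P} (hξ : T₀ < C.h ξ x) : ξ ∈ C.Fix γ := by
  rw [Cusps.mem_Fix]
  by_contra hne
  have h1 := hk.comp _ _ hx (γ • C.sP ξ)
  rw [C.h_smul, C.h_s] at h1
  have h2 := C.h_sep _ _ x hne
  have hp := C.h_pos ξ x
  have h3 : C.h ξ x * C.h ξ x ≤ B := by
    have hp2 := C.h_pos (γ • C.sP ξ) x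
    have hBp : 0 < B := by
      by_contra hBn
      have := mul_nonpos_of_nonpos_of_nonneg (not_lt.mp hBn) hp2.le
      linarith
    calc C.h ξ x * C.h ξ x ≤ (B * C.h (γ • C.sP ξ) x) * C.h ξ x := by gcongr
      _ = B * (C.h (γ • C.sP ξ) x * C.h ξ x) := by ring
      _ ≤ B * 1 := by gcongr
      _ = B := mul_one B
  nlinarith

/-- the elliptic part lives on the truncated space -/
theorem IsKer.ell_mem (hk : C.IsKer k B) {T : ℝ} (h0 : 0 ≤ T) (hB : B ≤ T ^ 2) {γ : G} {x : X}
    (hγ : C.Ell γ) (hx : k x (γ • C.s x) ≠ 0) : x ∈ C.XT T := by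
  intro ξ
  by_contra hc
  have := hk.fix h0 hB hx (not_le.mp hc)
  rw [hγ] at this
  exact this

/-- for the torus only the two base cusps matter -/
theorem IsKer.hyp_mem (hk : C.IsKer k B) {T : ℝ} (h0 : 0 ≤ T) (hB : B ≤ T ^ 2) {a : G} {x : X}
    (ha : C.Hyp a) (haT : a ∈ C.T) (hx : k x (a • C.s x) ≠ 0) :
    x ∈ C.XT T ↔ C.h C.c0 x ≤ T ∧ C.h C.c1 x ≤ T := by
  constructor
  · intro h; exact ⟨h _, h _⟩
  · rintro ⟨h1, h2⟩ ξ
    by_contra hc
    have hf := hk.fix h0 hB hx (not_le.mp hc)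
    obtain ⟨ξ', η', hne, he⟩ := ha
    obtain ⟨ha0, ha1⟩ := C.mem_T.mp haT
    have m0 : C.c0 ∈ C.Fix a := by rw [Cusps.mem_Fix, C.sP_c0, ha0]
    have m1 : C.c1 ∈ C.Fix a := by rw [Cusps.mem_Fix, C.sP_c1, ha1]
    have hcc := C.ne
    rw [he] at hf m0 m1
    simp only [Set.mem_insert_iff, Set.mem_singleton_iff] at hf m0 m1
    have : ξ = C.c0 ∨ ξ = C.c1 := by
      rcases m0 with m0 | m0 <;> rcases m1 with m1 | m1
      · exact absurd (m0.trans m1.symm) hcc
      · rcases hf with hf | hf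
        · exact Or.inl (hf.trans m0.symm)
        · exact Or.inr (hf.trans m1.symm)
      · rcases hf with hf | hf
        · exact Or.inr (hf.trans m1.symm)
        · exact Or.inl (hf.trans m0.symm)
      · exact absurd (m0.trans m1.symm) hcc
    rcases this with rfl | rfl
    · exact hc h1
    · exact hc h2

/-- the invariance of the twisted kernel function -/
theorem IsKer.twist_inv (hk : C.IsKer k B) (g γ : G) (x : X) :
    k (g • x) ((g * γ * (C.τ g)⁻¹) • C.s (g • x)) = k x (γ • C.s x) := by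
  rw [C.s_smul, mul_smul, inv_smul_smul, mul_smul, hk.inv]

variable [MeasurableSpace G] [Countable G] [DiscreteMeasurableSpace G] [MeasurableConstSMul G X]
  [Countable P]
variable [NormedSpace ℝ E] [CompleteSpace E] [SecondCountableTopology E]
variable {μ : Measure X} [SFinite μ] [SMulInvariantMeasure G X μ]

open Classical in
/-- The elliptic part of the twisted trace. -/
noncomputable def Jell (C : HtData G P X) (k : X → X → E) (w : X → ℝ≥0∞) (μ : Measure X) : E :=
  ∫ x, (w x).toReal • ∑' γ : G, (if C.Ell γ then k x (γ • C.s x) else 0) ∂μ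

open Classical in
/-- The hyperbolic kernel on the torus. -/
noncomputable def kap (C : HtData G P X) (k : X → X → E) (x : X) : E :=
  ∑' a : C.T, (if C.Hyp (a : G) then k x ((a : G) • C.s x) else 0)

open Classical in
/-- absolute version of `kap` -/
noncomputable def kapN (C : HtData G P X) (k : X → X → E) (x : X) : ℝ≥0∞ :=
  ∑' a : C.T, (if C.Hyp (a : G) then ‖k x ((a : G) • C.s x)‖ₑ else 0)

/-- The truncated twisted trace. -/
noncomputable def JT (C : HtData G P X) (k : X → X → E) (w : X → ℝ≥0∞) (μ : Measure X) (T : ℝ) :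
    E :=
  ∫ x, (w x).toReal • (C.XT T).indicator (fun x => ∑' γ : G, k x (γ • C.s x)) x ∂μ

/-- the region `h_∞, h_0 ≤ T` -/
def X2 (C : HtData G P X) (T : ℝ) : Set X := {x | C.h C.c0 x ≤ T ∧ C.h C.c1 x ≤ T}

/-- **The truncated trace**: elliptic part plus torus integral. -/
theorem IsKer.JT_eq (hk : C.IsKer k B) {T : ℝ} (h0 : 0 ≤ T) (hB : B ≤ T ^ 2)
    {w wT : X → ℝ≥0∞} (hw : IsWeight G w) (hwT : IsWeight C.T wT)
    (hm : ∀ γ : G, AEStronglyMeasurable (fun x => k x (γ • C.s x)) μ)
    (hint : ∫⁻ x, w x * (C.XT T).indicator (fun x => ∑' γ : G, ‖k x (γ • C.s x)‖ₑ) x ∂μ ≠ ∞) :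
    C.JT k w μ T = C.Jell k w μ +
      (2⁻¹ : ℝ) • ∫ x, (wT x).toReal • (C.X2 T).indicator (C.kap k) x ∂μ ∧
    ∫⁻ x, wT x * (C.X2 T).indicator (C.kapN k) x ∂μ ≠ ∞ := by
  classical
  set Φ : G → X → E := fun γ x => (C.XT T).indicator (fun x => k x (γ • C.s x)) x with hΦdef
  have hΦm : ∀ γ, AEStronglyMeasurable (Φ γ) μ := fun γ =>
    (hm γ).indicator (C.measurableSet_XT T)
  have hΦinv : ∀ g γ x, Φ (g * γ * (C.τ g)⁻¹) (g • x) = Φ γ x := by
    intro g γ x
    simp only [hΦdef]
    by_cases hx : x ∈ C.XT T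
    · rw [indicator_of_mem (C.smul_mem_XT.mpr hx), indicator_of_mem hx, hk.twist_inv]
    · rw [indicator_of_notMem (fun h => hx (C.smul_mem_XT.mp h)), indicator_of_notMem hx]
  -- absolute bound
  have habs : ∀ x, ∑' γ : G, ‖Φ γ x‖ₑ =
      (C.XT T).indicator (fun x => ∑' γ : G, ‖k x (γ • C.s x)‖ₑ) x := by
    intro x
    simp only [hΦdef]
    by_cases hx : x ∈ C.XT T
    · simp [indicator_of_mem hx]
    · simp [indicator_of_notMem hx]
  have hintΦ : ∫⁻ x, w x * ∑' γ : G, ‖Φ γ x‖ₑ ∂μ ≠ ∞ := by simpa only [habs] using hint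
  have hle : ∀ (p : G → Prop) x, ∑' γ : G, (if p γ then ‖Φ γ x‖ₑ else 0) ≤ ∑' γ : G, ‖Φ γ x‖ₑ := by
    intro p x
    refine ENNReal.tsum_le_tsum fun γ => ?_
    split_ifs
    · exact le_rfl
    · exact zero_le
  have hintH : ∫⁻ x, w x * ∑' γ : G, (if C.Hyp γ then ‖Φ γ x‖ₑ else 0) ∂μ ≠ ∞ :=
    ne_top_of_le_ne_top hintΦ (lintegral_mono fun x => mul_le_mul_right (hle _ x) _)
  obtain ⟨hu1, hu2⟩ := C.hyp_unfold hw hwT hΦm hΦinv hintH
  -- identification of the torus sums
  have hT1 : ∀ x, ∑' a : C.T, (if C.Hyp (a : G) then Φ a x else 0) =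
      (C.X2 T).indicator (C.kap k) x := by
    intro x
    by_cases hx : x ∈ C.X2 T
    · rw [indicator_of_mem hx]
      unfold kap
      refine tsum_congr fun a => ?_
      split_ifs with ha
      · simp only [hΦdef]
        by_cases hkx : k x ((a : G) • C.s x) = 0
        · rw [hkx]
          by_cases hxT : x ∈ C.XT T
          · rw [indicator_of_mem hxT, hkx]
          · rw [indicator_of_notMem hxT]
        · rw [indicator_of_mem ((hk.hyp_mem h0 hB ha a.2 hkx).mpr hx)]
      · rfl
    · rw [indicator_of_notMem hx]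
      have : ∀ a : C.T, (if C.Hyp (a : G) then Φ a x else 0) = 0 := by
        intro a
        split_ifs
        · simp only [hΦdef]
          exact indicator_of_notMem (fun h : x ∈ C.XT T => hx ⟨h _, h _⟩) _
        · rfl
      simp [this]
  have hT2 : ∀ x, ∑' a : C.T, (if C.Hyp (a : G) then ‖Φ a x‖ₑ else 0) =
      (C.X2 T).indicator (C.kapN k) x := by
    intro x
    by_cases hx : x ∈ C.X2 T
    · rw [indicator_of_mem hx]
      unfold kapN
      refine tsum_congr fun a => ?_
      split_ifs with ha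
      · simp only [hΦdef]
        by_cases hkx : k x ((a : G) • C.s x) = 0
        · rw [hkx]
          by_cases hxT : x ∈ C.XT T
          · rw [indicator_of_mem hxT, hkx]
          · rw [indicator_of_notMem hxT]
        · rw [indicator_of_mem ((hk.hyp_mem h0 hB ha a.2 hkx).mpr hx)]
      · rfl
    · rw [indicator_of_notMem hx]
      have : ∀ a : C.T, (if C.Hyp (a : G) then ‖Φ a x‖ₑ else 0) = 0 := by
        intro a
        split_ifs
        · simp only [hΦdef]
          rw [indicator_of_notMem (fun h : x ∈ C.XT T => hx ⟨h _, h _⟩)]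
          simp
        · rfl
      simp [this]
  simp_rw [hT1] at hu1
  simp_rw [hT2] at hu2
  refine ⟨?_, hu2⟩
  rw [← hu1]
  -- a.e. summability
  have hwm := hw.meas
  have hsum : ∀ᵐ x ∂μ, w x ≠ 0 → Summable (fun γ => ‖Φ γ x‖) := by
    have hmeas : AEMeasurable (fun x => w x * ∑' γ : G, ‖Φ γ x‖ₑ) μ :=
      hwm.aemeasurable.mul (AEMeasurable.tsum fun γ => (hΦm γ).enorm)
    filter_upwards [ae_lt_top' hmeas hintΦ] with x hx hwx
    refine tsum_enorm_ne_top_iff_summable_norm.1 ?_
    intro h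
    rw [h, ENNReal.mul_top hwx] at hx
    exact lt_irrefl _ hx
  have hell : ∀ x, ∑' γ : G, (if C.Ell γ then Φ γ x else 0) =
      ∑' γ : G, (if C.Ell γ then k x (γ • C.s x) else 0) := by
    intro x
    refine tsum_congr fun γ => ?_
    split_ifs with he
    · simp only [hΦdef]
      by_cases hkx : k x (γ • C.s x) = 0
      · rw [hkx]
        by_cases hxT : x ∈ C.XT T
        · rw [indicator_of_mem hxT, hkx]
        · rw [indicator_of_notMem hxT]
      · rw [indicator_of_mem (hk.ell_mem h0 hB he hkx)]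
    · rfl
  have hdisj : ∀ γ, ¬ (C.Hyp γ ∧ C.Ell γ) := by
    rintro γ ⟨⟨ξ, η, -, h1⟩, h2⟩
    rw [Cusps.Ell, h1] at h2
    exact (Set.insert_nonempty _ _).ne_empty h2
  have hi : ∀ p : G → Prop, Integrable (fun x => (w x).toReal •
      ∑' γ : G, (if p γ then Φ γ x else 0)) μ := by
    intro p
    have hpm : AEStronglyMeasurable (fun x => ∑' γ : G, (if p γ then Φ γ x else 0)) μ := by
      borelize E
      refine (AEMeasurable.tsum fun γ => ?_).aestronglyMeasurable
      split_ifs
      · exact (hΦm γ).aemeasurable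
      · exact aemeasurable_const
    refine integrable_weight (Γ := G) hw hpm (ne_top_of_le_ne_top hintΦ ?_)
    refine lintegral_mono_ae ?_
    filter_upwards with x
    gcongr
    refine enorm_tsum_le_tsum_enorm.trans (ENNReal.tsum_le_tsum fun γ => ?_)
    split_ifs
    · exact le_rfl
    · simp
  unfold JT Jell
  simp_rw [← hell]
  rw [← integral_add (hi _) (hi _)]
  refine integral_congr_ae ?_
  filter_upwards [hsum] with x hx
  by_cases hwx : w x = 0
  · simp [hwx]
  · have hs := hx hwx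
    rw [← smul_add]
    congr 1
    have hsp : ∀ p : G → Prop, Summable fun γ => (if p γ then Φ γ x else 0) := fun p => by
      refine Summable.of_norm (Summable.of_nonneg_of_le (fun γ => norm_nonneg _) (fun γ => ?_) hs)
      split_ifs
      · exact le_rfl
      · simp
    rw [← (hsp _).tsum_add (hsp _)]
    have : (C.XT T).indicator (fun x => ∑' γ : G, k x (γ • C.s x)) x = ∑' γ : G, Φ γ x := by
      simp only [hΦdef]
      by_cases hxT : x ∈ C.XT T
      · simp [indicator_of_mem hxT]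
      · simp [indicator_of_notMem hxT]
    rw [this]
    refine tsum_congr fun γ => ?_
    by_cases h1 : C.Ell γ
    · have h2 : ¬ C.Hyp γ := fun h2 => hdisj γ ⟨h2, h1⟩
      rw [if_pos h1, if_neg h2, add_zero]
    · by_cases h2 : C.Hyp γ
      · rw [if_neg h1, if_pos h2, zero_add]
      · rw [if_neg h1, if_neg h2, add_zero]
        simp only [hΦdef]
        by_cases hkx : k x (γ • C.s x) = 0
        · by_cases hxT : x ∈ C.XT T
          · rw [indicator_of_mem hxT, hkx]
          · rw [indicator_of_notMem hxT]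
        · rcases hk.good γ x hkx with h | h
          · exact absurd h h2
          · exact absurd h h1

end HtData

end Fermat.Agent.LT.F
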